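import Mathlib

/-! The combinatorial identity behind `T Z'/Z = ∑ N_j T^j`. -/

set_option autoImplicit false

open Finset

namespace Fermat.Agent.Zeta

section

variable {P : Type*} (σ : Equiv.Perm P)

/-- `∑_{i<j} σ^i v` -/
noncomputable def nrm (j : ℕ) (v : P) : P →₀ ℤ := ∑ i ∈ range j, Finsupp.single ((σ ^ i) v) 1

/-- degree -/
noncomputable def dg : (P →₀ ℤ) →+ ℤ := Finsupp.liftAddHom fun _ => AddMonoidHom.id ℤ

@[simp] theorem dg_single (v : P) (n : ℤ) : dg (Finsupp.single v n) = n := by simp [dg]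

theorem dg_eq_sum (D : P →₀ ℤ) : dg D = D.sum fun _ n => n := by
  simp [dg, Finsupp.sum]

@[simp] theorem dg_nrm (j : ℕ) (v : P) : dg (nrm σ j v) = j := by
  unfold nrm
  rw [map_sum]
  simp

theorem nrm_nonneg (j : ℕ) (v : P) : 0 ≤ nrm σ j v := by
  classical
  unfold nrm
  refine Finset.sum_nonneg fun i _ => ?_
  intro u
  rw [Finsupp.single_apply]
  split_ifs <;> simp

theorem nrm_zero (v : P) : nrm σ 0 v = 0 := by simp [nrm]

theorem dg_nonneg {D : P →₀ ℤ} (h : 0 ≤ D) : 0 ≤ dg D := by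
  rw [dg_eq_sum]
  exact Finset.sum_nonneg fun v _ => h v

theorem dg_mono {D E : P →₀ ℤ} (h : D ≤ E) : dg D ≤ dg E := by
  have h1 : 0 ≤ E - D := sub_nonneg.mpr h
  have := dg_nonneg h1
  rw [map_sub] at this
  omega

/-- `D` is invariant -/
def Inv (D : P →₀ ℤ) : Prop := ∀ v, D (σ v) = D v

variable {σ}

theorem Inv.pow {D : P →₀ ℤ} (h : Inv σ D) (i : ℕ) (v : P) : D ((σ ^ i) v) = D v := by
  induction i with
  | zero => simp
  | succ i ih => rw [pow_succ', Equiv.Perm.mul_apply, h, ih]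

theorem Inv.add {D E : P →₀ ℤ} (h : Inv σ D) (h' : Inv σ E) : Inv σ (D + E) := fun v => by
  rw [Finsupp.add_apply, Finsupp.add_apply, h, h']

theorem Inv.sub {D E : P →₀ ℤ} (h : Inv σ D) (h' : Inv σ E) : Inv σ (D - E) := fun v => by
  rw [Finsupp.sub_apply, Finsupp.sub_apply, h, h']

theorem nrm_apply (j : ℕ) (v u : P) [DecidableEq P] :
    nrm σ j v u = #{i ∈ range j | (σ ^ i) v = u} := by
  unfold nrm
  rw [Finsupp.finsetSum_apply]
  simp only [Finsupp.single_apply]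
  rw [Finset.sum_boole]

theorem inv_nrm {j : ℕ} {v : P} (h : (σ ^ j) v = v) : Inv σ (nrm σ j v) := by
  classical
  intro u
  have h1 : ∀ u : P, ∑ i ∈ range j, (Finsupp.single ((σ ^ (i + 1)) v) (1 : ℤ)) u =
      ∑ i ∈ range j, (Finsupp.single ((σ ^ i) v) (1 : ℤ)) u := by
    intro u
    have h2 := Finset.sum_range_succ (fun i => (Finsupp.single ((σ ^ i) v) (1 : ℤ)) u) j
    have h3 := Finset.sum_range_succ' (fun i => (Finsupp.single ((σ ^ i) v) (1 : ℤ)) u) j
    rw [h3] at h2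
    simp only [h, pow_zero, Equiv.Perm.one_apply] at h2
    linarith
  unfold nrm
  rw [Finsupp.finsetSum_apply, Finsupp.finsetSum_apply, ← h1 (σ u)]
  refine Finset.sum_congr rfl fun i _ => ?_
  rw [Finsupp.single_apply, Finsupp.single_apply, pow_succ', Equiv.Perm.mul_apply]
  simp only [EmbeddingLike.apply_eq_iff_eq]

theorem mem_support_nonneg {D : P →₀ ℤ} (h0 : 0 ≤ D) {v : P} (hv : D v ≠ 0) : 1 ≤ D v := by
  have := h0 v
  rw [Finsupp.coe_zero, Pi.zero_apply] at this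
  omega

theorem card_support_le {D : P →₀ ℤ} (h0 : 0 ≤ D) : (D.support.card : ℤ) ≤ dg D := by
  rw [dg_eq_sum, Finsupp.sum, Finset.card_eq_sum_ones]
  push_cast
  exact Finset.sum_le_sum fun v hv => mem_support_nonneg h0 (Finsupp.mem_support_iff.mp hv)

/-- points of the support of an invariant effective divisor of degree `n` have period `≤ n` -/
theorem exists_period {D : P →₀ ℤ} (h0 : 0 ≤ D) (hinv : Inv σ D) {n : ℕ} (hn : dg D = n)
    {v : P} (hv : D v ≠ 0) : ∃ j, 1 ≤ j ∧ j ≤ n ∧ (σ ^ j) v = v := by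
  classical
  have hcard : #D.support < #(range (n + 1)) := by
    have := card_support_le h0
    rw [hn] at this
    rw [card_range]
    omega
  obtain ⟨a, ha, b, hb, hab, h⟩ := Finset.exists_ne_map_eq_of_card_lt_of_maps_to hcard
    (f := fun i => (σ ^ i) v) (by
      intro i _
      simp only [Finset.mem_coe, Finsupp.mem_support_iff]
      rw [hinv.pow]
      exact hv)
  rw [Finset.mem_range] at ha hb
  wlog hlt : a < b generalizing a b
  · exact this b hb a ha hab.symm h.symm (by omega)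
  refine ⟨b - a, by omega, by omega, ?_⟩
  have h1 : (σ ^ b) v = (σ ^ a) ((σ ^ (b - a)) v) := by
    rw [← Equiv.Perm.mul_apply, ← pow_add]
    congr 2
    omega
  rw [h1] at h
  exact ((σ ^ a).injective h).symm

variable (σ) in
/-- invariant effective divisors of degree `n` -/
def effInv (n : ℕ) : Set (P →₀ ℤ) := {D | 0 ≤ D ∧ Inv σ D ∧ dg D = n}

theorem apply_le_dg {D : P →₀ ℤ} (h0 : 0 ≤ D) (v : P) : D v ≤ dg D := by
  have h1 : Finsupp.single v (D v) ≤ D := by
    classical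
    intro u
    rw [Finsupp.single_apply]
    split_ifs with h
    · rw [h]
    · exact h0 u
  have := dg_mono h1
  rwa [dg_single] at this

theorem finite_effInv (hP : ∀ n : ℕ, 1 ≤ n → {v : P | (σ ^ n) v = v}.Finite) (n : ℕ) :
    (effInv σ n).Finite := by
  classical
  have hS : (⋃ j ∈ Finset.Icc 1 n, {v : P | (σ ^ j) v = v}).Finite := by
    refine Set.Finite.biUnion (Finset.finite_toSet _) fun j hj => hP j ?_
    simp only [Finset.coe_Icc, Set.mem_Icc] at hj
    exact hj.1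
  set S := hS.toFinset with hSdef
  refine (Set.finite_Icc (0 : P →₀ ℤ) (∑ v ∈ S, Finsupp.single v (n : ℤ))).subset ?_
  rintro D ⟨h0, hinv, hn⟩
  refine ⟨h0, fun v => ?_⟩
  rw [Finsupp.finsetSum_apply]
  simp only [Finsupp.single_apply]
  rw [Finset.sum_ite_eq' S v]
  by_cases hv : D v = 0
  · rw [hv]
    split_ifs <;> simp
  · obtain ⟨j, hj1, hj2, hj3⟩ := exists_period h0 hinv hn hv
    have : v ∈ S := by
      rw [hSdef, Set.Finite.mem_toFinset, Set.mem_iUnion₂]
      exact ⟨j, Finset.mem_Icc.mpr ⟨hj1, hj2⟩, hj3⟩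
    rw [if_pos this, ← hn]
    exact apply_le_dg h0 v

theorem nrm_mul {m : ℕ} {v : P} (hm : (σ ^ m) v = v) (t : ℕ) :
    nrm σ (m * t) v = (t : ℤ) • nrm σ m v := by
  have hpow : ∀ t : ℕ, (σ ^ (m * t)) v = v := by
    intro t
    induction t with
    | zero => simp
    | succ t ih => rw [Nat.mul_succ, pow_add, Equiv.Perm.mul_apply, hm, ih]
  induction t with
  | zero => simp [nrm]
  | succ t ih =>
    have : nrm σ (m * (t + 1)) v = nrm σ (m * t) v + nrm σ m v := by
      unfold nrm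
      rw [Nat.mul_succ, Finset.sum_range_add]
      congr 1
      refine Finset.sum_congr rfl fun i _ => ?_
      rw [add_comm, pow_add, Equiv.Perm.mul_apply, hpow]
    rw [this, ih]
    push_cast
    rw [add_smul, one_smul]

theorem card_pairs {D : P →₀ ℤ} (h0 : 0 ≤ D) (hinv : Inv σ D) {n : ℕ} (hn : dg D = n) (v : P) :
    haveI := Classical.decEq P
    haveI := Classical.decRel (fun a b : P →₀ ℤ => a ≤ b)
    (#{j ∈ Finset.Icc 1 n | (σ ^ j) v = v ∧ nrm σ j v ≤ D} : ℤ) = D v := by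
  classical
  by_cases hv : D v = 0
  · rw [hv]
    norm_cast
    rw [Finset.card_eq_zero, Finset.filter_eq_empty_iff]
    rintro j hj ⟨h1, h2⟩
    rw [Finset.mem_Icc] at hj
    have h3 := h2 v
    rw [hv, nrm_apply] at h3
    have h4 : 0 < #{i ∈ range j | (σ ^ i) v = v} := by
      rw [Finset.card_pos]
      exact ⟨0, by simp; omega⟩
    omega
  obtain ⟨j₀, hj1, -, hj3⟩ := exists_period h0 hinv hn hv
  set m := Function.minimalPeriod σ v with hm
  have hper : ∀ j : ℕ, (σ ^ j) v = v ↔ m ∣ j := by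
    intro j
    rw [hm, ← Function.isPeriodicPt_iff_minimalPeriod_dvd, Function.IsPeriodicPt,
      Function.IsFixedPt, Equiv.Perm.iterate_eq_pow]
  have hmpos : 0 < m := Nat.pos_of_dvd_of_pos ((hper j₀).mp hj3) hj1
  have hmv : (σ ^ m) v = v := (hper m).mpr dvd_rfl
  have hinj : ∀ a < m, ∀ b < m, (σ ^ a) v = (σ ^ b) v → a = b := by
    intro a ha b hb hab
    wlog hlt : a ≤ b generalizing a b
    · exact (this b hb a ha hab.symm (by omega)).symm
    have h1 : (σ ^ b) v = (σ ^ a) ((σ ^ (b - a)) v) := by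
      rw [← Equiv.Perm.mul_apply, ← pow_add]
      congr 2
      omega
    rw [h1] at hab
    have h2 := ((σ ^ a).injective hab).symm
    have h3 := (hper (b - a)).mp h2
    rcases Nat.eq_zero_or_pos (b - a) with h4 | h4
    · omega
    · have := Nat.le_of_dvd h4 h3
      omega
  have hle : ∀ t : ℕ, nrm σ (m * t) v ≤ D ↔ (t : ℤ) ≤ D v := by
    intro t
    rw [nrm_mul hmv]
    have happ : ∀ u : P, nrm σ m v u ≤ 1 := by
      intro u
      rw [nrm_apply]
      norm_cast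
      rw [Finset.card_le_one]
      intro a ha b hb
      rw [Finset.mem_filter, Finset.mem_range] at ha hb
      exact hinj a ha.1 b hb.1 (ha.2.trans hb.2.symm)
    have happv : nrm σ m v v = 1 := by
      refine le_antisymm (happ v) ?_
      rw [nrm_apply]
      norm_cast
      rw [Nat.one_le_iff_ne_zero, Finset.card_ne_zero]
      exact ⟨0, by simp; omega⟩
    constructor
    · intro h
      have := h v
      rw [Finsupp.smul_apply, happv, smul_eq_mul, mul_one] at this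
      exact this
    · intro h u
      rw [Finsupp.smul_apply, smul_eq_mul]
      rcases Nat.eq_zero_or_pos #{i ∈ range m | (σ ^ i) v = u} with h1 | h1
      · rw [nrm_apply, h1]
        simpa using h0 u
      · obtain ⟨i, hi⟩ := Finset.card_pos.mp h1
        rw [Finset.mem_filter] at hi
        have h2 : D u = D v := by rw [← hi.2, hinv.pow]
        have h3 : nrm σ m v u = 1 := by
          refine le_antisymm (happ u) ?_
          rw [nrm_apply]
          exact_mod_cast h1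
        rw [h3, h2]
        linarith
  obtain ⟨N, hN⟩ := Int.eq_ofNat_of_zero_le (by simpa using h0 v : 0 ≤ D v)
  have hset : {j ∈ Finset.Icc 1 n | (σ ^ j) v = v ∧ nrm σ j v ≤ D} =
      (Finset.Icc 1 N).image (fun t => m * t) := by
    ext j
    simp only [Finset.mem_filter, Finset.mem_Icc, Finset.mem_image]
    constructor
    · rintro ⟨⟨h1, h2⟩, h3, h4⟩
      obtain ⟨t, rfl⟩ := (hper j).mp h3
      rw [hle, hN] at h4
      refine ⟨t, ⟨?_, by exact_mod_cast h4⟩, rfl⟩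
      rcases Nat.eq_zero_or_pos t with rfl | h
      · simp at h1
      · exact h
    · rintro ⟨t, ⟨h1, h2⟩, rfl⟩
      have h4 : nrm σ (m * t) v ≤ D := by
        rw [hle, hN]; exact_mod_cast h2
      have h5 := dg_mono h4
      rw [dg_nrm, hn] at h5
      refine ⟨⟨Nat.mul_pos hmpos h1, by exact_mod_cast h5⟩, (hper _).mpr ⟨t, rfl⟩, h4⟩
  have hcard : #{j ∈ Finset.Icc 1 n | (σ ^ j) v = v ∧ nrm σ j v ≤ D} = N := by
    rw [hset, Finset.card_image_of_injective _ (fun a b h => Nat.eq_of_mul_eq_mul_left hmpos h)]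
    simp
  rw [hN, ← hcard]

end

section main

variable {P : Type*} {σ : Equiv.Perm P} {R : Type*} [CommRing R]

/-- the main combinatorial identity -/
theorem main_identity (hP : ∀ n : ℕ, 1 ≤ n → {v : P | (σ ^ n) v = v}.Finite)
    (w : (P →₀ ℤ) → R) (hw : ∀ D E, Inv σ D → Inv σ E → w (D + E) = w D * w E) (n : ℕ) :
    (n : R) * ∑ᶠ D ∈ effInv σ n, w D =
      ∑ j ∈ Finset.Icc 1 n, (∑ᶠ v ∈ {v : P | (σ ^ j) v = v}, w (nrm σ j v)) *
        ∑ᶠ E ∈ effInv σ (n - j), w E := by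
  classical
  have hS : (⋃ j ∈ Finset.Icc 1 n, {v : P | (σ ^ j) v = v}).Finite := by
    refine Set.Finite.biUnion (Finset.finite_toSet _) fun j hj => hP j ?_
    simp only [Finset.coe_Icc, Set.mem_Icc] at hj
    exact hj.1
  set S := hS.toFinset with hSdef
  have hmemS : ∀ j v, 1 ≤ j → j ≤ n → (σ ^ j) v = v → v ∈ S := by
    intro j v h1 h2 h3
    rw [hSdef, Set.Finite.mem_toFinset, Set.mem_iUnion₂]
    exact ⟨j, Finset.mem_Icc.mpr ⟨h1, h2⟩, h3⟩
  set En : ℕ → Finset (P →₀ ℤ) := fun m => (finite_effInv hP m).toFinset with hEn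
  have hE : ∀ m, ∑ᶠ D ∈ effInv σ m, w D = ∑ D ∈ En m, w D := by
    intro m
    rw [hEn, finsum_mem_eq_finite_toFinset_sum _ (finite_effInv hP m)]
  have hmemE : ∀ m D, D ∈ En m ↔ 0 ≤ D ∧ Inv σ D ∧ dg D = m := by
    intro m D
    rw [hEn, Set.Finite.mem_toFinset]
    rfl
  have hV : ∀ j ∈ Finset.Icc 1 n, ∑ᶠ v ∈ {v : P | (σ ^ j) v = v}, w (nrm σ j v) =
      ∑ v ∈ S with (σ ^ j) v = v, w (nrm σ j v) := by
    intro j hj
    rw [Finset.mem_Icc] at hj
    rw [finsum_mem_eq_finite_toFinset_sum _ (hP j hj.1)]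
    refine Finset.sum_congr ?_ fun _ _ => rfl
    ext v
    rw [Set.Finite.mem_toFinset, Finset.mem_filter]
    constructor
    · intro h
      exact ⟨hmemS j v hj.1 hj.2 h, h⟩
    · intro h
      exact h.2
  have hRHS : ∑ j ∈ Finset.Icc 1 n, (∑ᶠ v ∈ {v : P | (σ ^ j) v = v}, w (nrm σ j v)) *
        ∑ᶠ E ∈ effInv σ (n - j), w E =
      ∑ x ∈ (Finset.Icc 1 n).sigma (fun j => {v ∈ S | (σ ^ j) v = v} ×ˢ En (n - j)),
        w (nrm σ x.1 x.2.1 + x.2.2) := by
    rw [Finset.sum_sigma]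
    refine Finset.sum_congr rfl fun j hj => ?_
    rw [hV j hj, hE, Finset.sum_mul_sum, Finset.sum_product]
    refine Finset.sum_congr rfl fun v hv => Finset.sum_congr rfl fun E hE' => ?_
    rw [hw _ _ (inv_nrm (Finset.mem_filter.mp hv).2) ((hmemE _ _).mp hE').2.1]
  have hcard : ∀ D ∈ En n, (#{x ∈ (Finset.Icc 1 n) ×ˢ S | (σ ^ x.1) x.2 = x.2 ∧
      nrm σ x.1 x.2 ≤ D} : R) = n := by
    intro D hD
    obtain ⟨h0, hinv, hdg⟩ := (hmemE n D).mp hD
    have h1 : (#{x ∈ (Finset.Icc 1 n) ×ˢ S | (σ ^ x.1) x.2 = x.2 ∧ nrm σ x.1 x.2 ≤ D} : ℤ) =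
        n := by
      rw [Finset.card_filter, Finset.sum_product_right]
      push_cast
      rw [← hdg, dg_eq_sum, Finsupp.sum]
      have hsub : D.support ⊆ S := by
        intro v hv
        obtain ⟨j, hj1, hj2, hj3⟩ := exists_period h0 hinv hdg (Finsupp.mem_support_iff.mp hv)
        exact hmemS j v hj1 hj2 hj3
      rw [Finset.sum_subset hsub (fun v _ hv => by simpa using hv)]
      refine Finset.sum_congr rfl fun v _ => ?_
      rw [← card_pairs h0 hinv hdg v, Finset.card_filter]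
      push_cast
      refine Finset.sum_congr ?_ fun j _ => ?_
      · rfl
      · congr
    exact_mod_cast congrArg (Int.cast : ℤ → R) h1
  have hLHS : (n : R) * ∑ᶠ D ∈ effInv σ n, w D =
      ∑ x ∈ (En n).sigma (fun D => {x ∈ (Finset.Icc 1 n) ×ˢ S | (σ ^ x.1) x.2 = x.2 ∧
        nrm σ x.1 x.2 ≤ D}), w x.1 := by
    rw [hE, Finset.sum_sigma, Finset.mul_sum]
    refine Finset.sum_congr rfl fun D hD => ?_
    simp only
    rw [Finset.sum_const, nsmul_eq_mul, hcard D hD]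
  rw [hRHS, hLHS]
  symm
  refine Finset.sum_bij'
    (i := fun x _ => (⟨nrm σ x.1 x.2.1 + x.2.2, (x.1, x.2.1)⟩ : (_ : P →₀ ℤ) × (ℕ × P)))
    (j := fun y _ => (⟨y.2.1, (y.2.2, y.1 - nrm σ y.2.1 y.2.2)⟩ : (_ : ℕ) × (P × (P →₀ ℤ))))
    ?_ ?_ ?_ ?_ ?_
  · rintro ⟨j, v, E⟩ hx
    simp only [Finset.mem_sigma, Finset.mem_Icc, Finset.mem_product, Finset.mem_filter] at hx ⊢
    obtain ⟨⟨h1, h2⟩, ⟨h3, h4⟩, h5⟩ := hx
    obtain ⟨h6, h7, h8⟩ := (hmemE _ _).mp h5
    refine ⟨(hmemE _ _).mpr ⟨add_nonneg (nrm_nonneg _ _ _) h6, (inv_nrm h4).add h7, ?_⟩,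
      ⟨⟨h1, h2⟩, h3⟩, h4, le_add_of_nonneg_right h6⟩
    rw [map_add, dg_nrm, h8]
    omega
  · rintro ⟨D, j, v⟩ hx
    simp only [Finset.mem_sigma, Finset.mem_Icc, Finset.mem_product, Finset.mem_filter] at hx ⊢
    obtain ⟨h1, ⟨⟨h2, h3⟩, h4⟩, h5, h6⟩ := hx
    obtain ⟨h7, h8, h9⟩ := (hmemE _ _).mp h1
    refine ⟨⟨h2, h3⟩, ⟨h4, h5⟩, (hmemE _ _).mpr ⟨sub_nonneg.mpr h6, h8.sub (inv_nrm h5), ?_⟩⟩
    rw [map_sub, dg_nrm, h9]
    omega
  · rintro ⟨j, v, E⟩ _
    simp
  · rintro ⟨D, j, v⟩ _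
    simp
  · rintro ⟨j, v, E⟩ _
    rfl

end main

end Fermat.Agent.Zeta
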