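import Fermat.Agent.Zeta.Action
import Fermat.Agent.Zeta.Comb

/-! Frobenius automorphisms of function fields over the algebraic closure of a finite field. -/

set_option autoImplicit false

open AlgebraicCurve WithZero IsLocalRing Module

namespace Fermat.Agent.Zeta

open Fermat.Agent.RRC

variable {K F : Type*} [Field K] [Field F] [Algebra K F]

/-- `φ` is a `q`-Frobenius: it is `x ↦ x^q` on constants, and every function is defined over
a finite extension of `𝔽_q` -/
structure Frob (p : ℕ) (φ : SemilinearAut K F) (q : ℕ) : Prop where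
  two_le : 2 ≤ q
  dvd : p ∣ q
  base : ∀ a : K, SemilinearAut.baseAut φ a = a ^ q
  per : ∀ f : F, ∃ n : ℕ, n ≠ 0 ∧ φ ^ n • f = f

theorem pow_smul_eq_of_dvd {G X : Type*} [Monoid G] [MulAction G X] {g : G} {x : X} {m n : ℕ}
    (h : g ^ m • x = x) (hmn : m ∣ n) : g ^ n • x = x := by
  obtain ⟨t, rfl⟩ := hmn
  rw [pow_mul]
  induction t with
  | zero => simp
  | succ t ih => rw [pow_succ, mul_smul, h, ih]

theorem Frob.pow {p : ℕ} {φ : SemilinearAut K F} {q : ℕ} (h : Frob p φ q) {r : ℕ} (hr : r ≠ 0) :
    Frob p (φ ^ r) (q ^ r) where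
  two_le := h.two_le.trans (Nat.le_self_pow hr q)
  dvd := h.dvd.trans (dvd_pow_self q hr)
  base := by
    intro a
    clear hr
    induction r with
    | zero => simp
    | succ r ih =>
      rw [pow_succ', SemilinearAut.baseAut_mul]
      show SemilinearAut.baseAut φ (SemilinearAut.baseAut (φ ^ r) a) = _
      rw [ih, h.base, ← pow_mul, ← pow_succ]
  per := by
    intro f
    obtain ⟨n, hn, hf⟩ := h.per f
    refine ⟨n, hn, ?_⟩
    rw [← pow_mul]
    exact pow_smul_eq_of_dvd hf (dvd_mul_left n r)

theorem Frob.toPerm_pow (φ : SemilinearAut K F) (n : ℕ) (v : Place K F) :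
    ((MulAction.toPerm φ : Equiv.Perm (Place K F)) ^ n) v = φ ^ n • v := by
  induction n with
  | zero => simp
  | succ n ih => rw [pow_succ', Equiv.Perm.mul_apply, ih, pow_succ', mul_smul]; rfl

variable [FF K F]

theorem exists_only_pole (v : Place K F) :
    ∃ f : F, (∀ a : K, f ≠ algebraMap K F a) ∧ ∀ w : Place K F, v.ord f < 0 ∧ (w.ord f < 0 → w = v) := by
  have h1 := riemann_inequality (Finsupp.single v (genusFF K F + 1 : ℤ) : Divisor K F)
  rw [degree_single'] at h1
  have h2 : riemannRochSpace (0 : Divisor K F) <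
      riemannRochSpace (Finsupp.single v (genusFF K F + 1 : ℤ) : Divisor K F) := by
    refine lt_of_le_of_ne (riemannRochSpace_mono ?_) ?_
    · intro w
      classical
      rw [Finsupp.single_apply]
      split_ifs
      · simp only [Finsupp.coe_zero, Pi.zero_apply]; omega
      · simp
    · intro h
      rw [← h, finrank_L_zero] at h1
      push_cast at h1
      omega
  obtain ⟨f, hf1, hf2⟩ := SetLike.exists_of_lt h2
  have hconst : ∀ a : K, f ≠ algebraMap K F a := fun a ha => hf2 (mem_L_zero_iff.mpr ⟨a, ha⟩)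
  have hf0 : f ≠ 0 := fun h => hconst 0 (by rw [h, map_zero])
  have hne : ∀ w : Place K F, w.ord f < 0 → w = v := by
    intro w hw
    by_contra hcon
    rcases mem_riemannRochSpace_iff.mp hf1 w with h | h
    · exact hf0 h
    · rw [Finsupp.single_eq_of_ne hcon] at h
      omega
  refine ⟨f, hconst, fun w => ⟨?_, hne w⟩⟩
  by_contra hcon
  apply hf2
  rw [mem_riemannRochSpace_iff]
  intro w
  right
  simp only [Finsupp.coe_zero, Pi.zero_apply, neg_zero]
  by_contra hw
  exact hcon (hne w (by omega) ▸ (by omega))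

variable {p : ℕ} {φ : SemilinearAut K F} {q : ℕ}

/-- all places are periodic -/
theorem Frob.place_per (h : Frob p φ q) (v : Place K F) : ∃ n : ℕ, n ≠ 0 ∧ φ ^ n • v = v := by
  obtain ⟨f, -, hf⟩ := exists_only_pole v
  obtain ⟨n, hn, hfn⟩ := h.per f
  refine ⟨n, hn, ?_⟩
  apply (hf _).2
  have := SemilinearAut.ord_smul (φ ^ n) v f
  rw [hfn] at this
  rw [this]
  exact (hf v).1

/-- finiteness of the set of fixed places -/
theorem Frob.finite_fixed (h : Frob p φ q) {n : ℕ} (hn : n ≠ 0) :
    {v : Place K F | φ ^ n • v = v}.Finite := by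
  obtain ⟨v₀⟩ := instNonemptyPlace (K := K) (F := F)
  obtain ⟨f, hconst, hf⟩ := exists_only_pole v₀
  obtain ⟨m, hm, hfm⟩ := h.per f
  set Q : ℕ := q ^ (n * m) with hQ
  have hF := h.pow (Nat.mul_ne_zero hn hm)
  have hQ2 : 2 ≤ Q := hF.two_le
  have hroots : {a : K | a ^ Q = a}.Finite := by
    have hne : (Polynomial.X ^ Q - Polynomial.X : Polynomial K) ≠ 0 := by
      intro h0
      have := Polynomial.natDegree_sub_eq_left_of_natDegree_lt (p := (Polynomial.X ^ Q : Polynomial K))
        (q := Polynomial.X) (by simp; omega)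
      rw [h0] at this
      simp at this
      omega
    refine (Polynomial.rootSet_finite (Polynomial.X ^ Q - Polynomial.X : Polynomial K) K).subset ?_
    intro a ha
    rw [Polynomial.mem_rootSet]
    refine ⟨hne, ?_⟩
    simp [Set.mem_ofPred_eq ▸ ha]
  refine ((Set.finite_singleton v₀).union (hroots.biUnion (t := fun a : K =>
    (((div K (f - algebraMap K F a)).support : Finset (Place K F)) : Set (Place K F)))
      (fun a _ => Finset.finite_toSet _))).subset ?_
  intro v hv
  rw [Set.mem_ofPred_eq] at hv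
  have hv' : φ ^ (n * m) • v = v := pow_smul_eq_of_dvd hv (dvd_mul_right n m)
  have hf' : φ ^ (n * m) • f = f := pow_smul_eq_of_dvd hfm (dvd_mul_left m n)
  by_cases hpole : v.ord f < 0
  · left; exact (hf v).2 hpole
  · right
    have h1 : v.adicValuation f ≤ 1 := by
      rw [Place.adicValuation_le_one_iff]; right; omega
    obtain ⟨a, ha⟩ := exists_res v h1
    have h0 : f - algebraMap K F a ≠ 0 := sub_ne_zero.mpr (hconst a)
    have hord : ∀ b : K, v.adicValuation (f - algebraMap K F b) < 1 ↔
        0 < v.ord (f - algebraMap K F b) := by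
      intro b
      rw [val_eq_exp v (sub_ne_zero.mpr (hconst b)), ← exp_zero, exp_lt_exp]
      omega
    have h2 : v.adicValuation (f - algebraMap K F (a ^ Q)) < 1 := by
      rw [hord]
      have h3 : f - algebraMap K F (a ^ Q) = φ ^ (n * m) • (f - algebraMap K F a) := by
        rw [smul_sub, hf', SemilinearAut.smul_algebraMap, hF.base]
      rw [h3]
      have h4 := SemilinearAut.ord_smul (φ ^ (n * m)) v (f - algebraMap K F a)
      rw [hv'] at h4
      rw [h4, ← hord]
      exact ha
    rw [Set.mem_iUnion₂]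
    refine ⟨a, ?_, ?_⟩
    · rw [Set.mem_ofPred_eq]
      by_contra hcon
      have h5 : v.adicValuation (algebraMap K F (a ^ Q - a)) = 1 :=
        val_algebraMap v (sub_ne_zero.mpr hcon)
      have h6 : algebraMap K F (a ^ Q - a) = (f - algebraMap K F a) -
          (f - algebraMap K F (a ^ Q)) := by
        rw [map_sub]; ring
      rw [h6] at h5
      have h7 := (v.adicValuation.map_sub (f - algebraMap K F a)
        (f - algebraMap K F (a ^ Q))).trans_lt (max_lt ha h2)
      rw [h5] at h7
      exact lt_irrefl _ h7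
    · rw [Finset.mem_coe, Finsupp.mem_support_iff, div_apply h0]
      exact ((hord a).mp ha).ne'

end Fermat.Agent.Zeta
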