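import Fermat.Agent.Zeta.Main

/-! Finiteness of the Frobenius-fixed classes. -/

set_option autoImplicit false

open AlgebraicCurve

namespace Fermat.Agent.Zeta

open Fermat.Agent.RRC

variable {K F : Type*} [Field K] [Field F] [Algebra K F] [FF K F] [IsAlgClosed K] {p : ℕ}
  [CharP K p] {φ : SemilinearAut K F} {q : ℕ}

/-- only finitely many classes in `Pic0` are fixed by a Frobenius -/
theorem Frob.finite_fixedClasses (h : Frob p φ q) : {c : Pic0 K F | φ • c = c}.Finite := by
  obtain ⟨P₀⟩ := RRC.instNonemptyPlace (K := K) (F := F)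
  obtain ⟨n, hn0, hn⟩ := h.place_per P₀
  have hfin : Finite (fixedPic (φ ^ n)) := finite_fixedPic (h.pow hn0) hn
  have h1 : ((fixedPic (φ ^ n) : AddSubgroup (Pic0 K F)) : Set (Pic0 K F)).Finite := hfin
  refine h1.subset ?_
  intro c hc
  have h2 : φ ^ n • c = c := by
    have h3 : φ ^ 1 • c = c := by
      rw [pow_one]
      exact hc
    exact pow_smul_eq_of_dvd h3 (one_dvd n)
  exact h2

end Fermat.Agent.Zeta
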