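import Fermat.Agent.Zeta.LD

/-! Rationality of the zeta function, abstractly. -/

set_option autoImplicit false

open Polynomial

namespace Fermat.Agent.Zeta

/-- multiplication by `(1 - X) (1 - Q X)` on coefficients -/
theorem coeff_mul_two {R : Type*} [CommRing R] (Q : R) (a : ℕ → R) (n : ℕ) :
    PowerSeries.coeff (n + 2) ((1 - PowerSeries.X) * ((1 - PowerSeries.C Q * PowerSeries.X) *
      PowerSeries.mk a)) = a (n + 2) - (1 + Q) * a (n + 1) + Q * a n := by
  have h : ∀ b : PowerSeries R, ∀ m, PowerSeries.coeff (m + 1) ((1 - PowerSeries.X) * b) =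
      PowerSeries.coeff (m + 1) b - PowerSeries.coeff m b := by
    intro b m
    rw [sub_mul, one_mul, map_sub, PowerSeries.coeff_succ_X_mul]
  have h' : ∀ m, PowerSeries.coeff (m + 1) ((1 - PowerSeries.C Q * PowerSeries.X) *
      PowerSeries.mk a) = a (m + 1) - Q * a m := by
    intro m
    rw [sub_mul, one_mul, map_sub, mul_assoc, PowerSeries.coeff_C_mul,
      PowerSeries.coeff_succ_X_mul, PowerSeries.coeff_mk, PowerSeries.coeff_mk]
  rw [h, h', h']
  ring

theorem zeta_poly {g : ℕ} (hg : 1 ≤ g) {Q H : ℤ} (hQ : Q ≠ 1) (hQ0 : Q ≠ 0) (a : ℕ → ℤ)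
    (h0 : a 0 = 1)
    (h1 : ∀ n, 2 * g - 1 ≤ n → a n * (Q - 1) = H * (Q ^ (n + 1 - g) - 1))
    (h2 : a (2 * g - 2) * (Q - 1) = H * (Q ^ (g - 1) - 1) + (Q ^ g - Q ^ (g - 1))) :
    ∃ L : ℤ[X], ((L : ℤ[X]) : PowerSeries ℤ) =
        (1 - PowerSeries.X) * ((1 - PowerSeries.C Q * PowerSeries.X) * PowerSeries.mk a) ∧
      L.natDegree = 2 * g ∧ L.leadingCoeff = Q ^ g ∧ L.coeff 0 = 1 ∧ L.eval 1 = H := by
  have hQ1 : Q - 1 ≠ 0 := sub_ne_zero.mpr hQ
  obtain ⟨g, rfl⟩ : ∃ g', g = g' + 1 := ⟨g - 1, by omega⟩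
  set S : PowerSeries ℤ :=
    (1 - PowerSeries.X) * ((1 - PowerSeries.C Q * PowerSeries.X) * PowerSeries.mk a) with hS
  set L : ℤ[X] := PowerSeries.trunc (2 * (g + 1) + 1) S with hL
  have h1' : ∀ m, a (2 * g + 1 + m) * (Q - 1) = H * (Q ^ (g + 1 + m) - 1) := by
    intro m
    have := h1 (2 * g + 1 + m) (by omega)
    rw [this]
    congr 3
    omega
  have h2' : a (2 * g) * (Q - 1) = H * (Q ^ g - 1) + (Q ^ (g + 1) - Q ^ g) := by
    have := h2
    rw [show 2 * (g + 1) - 2 = 2 * g by omega, show g + 1 - 1 = g by omega] at this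
    exact this
  have hcoeff : ∀ n, 2 * (g + 1) + 1 ≤ n → PowerSeries.coeff n S = 0 := by
    intro n hn
    obtain ⟨m, rfl⟩ : ∃ m, n = (2 * g + 1 + m) + 2 := ⟨n - (2 * g + 3), by omega⟩
    rw [hS, coeff_mul_two]
    apply mul_right_cancel₀ hQ1
    have e1 := h1' m
    have e2 := h1' (m + 1)
    have e3 := h1' (m + 2)
    rw [show 2 * g + 1 + (m + 1) = 2 * g + 1 + m + 1 by ring] at e2
    rw [show 2 * g + 1 + (m + 2) = 2 * g + 1 + m + 2 by ring] at e3
    have : (a (2 * g + 1 + m + 2) - (1 + Q) * a (2 * g + 1 + m + 1) + Q * a (2 * g + 1 + m)) *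
        (Q - 1) = a (2 * g + 1 + m + 2) * (Q - 1) - (1 + Q) * (a (2 * g + 1 + m + 1) * (Q - 1)) +
        Q * (a (2 * g + 1 + m) * (Q - 1)) := by ring
    rw [this, e1, e2, e3]
    ring
  have hcoeff2 : PowerSeries.coeff (2 * (g + 1)) S = Q ^ (g + 1) := by
    rw [hS, show 2 * (g + 1) = 2 * g + 2 by ring, coeff_mul_two]
    apply mul_right_cancel₀ hQ1
    have e1 := h1' 0
    have e2 := h1' 1
    rw [show 2 * g + 1 + 1 = 2 * g + 2 by ring] at e2
    rw [add_zero] at e1
    have : (a (2 * g + 2) - (1 + Q) * a (2 * g + 1) + Q * a (2 * g)) *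
        (Q - 1) = a (2 * g + 2) * (Q - 1) - (1 + Q) * (a (2 * g + 1) * (Q - 1)) +
        Q * (a (2 * g) * (Q - 1)) := by ring
    rw [this, e1, e2, h2']
    ring
  have hLS : ((L : ℤ[X]) : PowerSeries ℤ) = S := by
    ext n
    rw [Polynomial.coeff_coe, hL, PowerSeries.coeff_trunc]
    split_ifs with h
    · rfl
    · exact (hcoeff n (by omega)).symm
  have hcL : ∀ n, L.coeff n = PowerSeries.coeff n S := by
    intro n
    rw [← hLS, Polynomial.coeff_coe]
  have hdeg : L.natDegree = 2 * (g + 1) := by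
    apply natDegree_eq_of_le_of_coeff_ne_zero
    · rw [natDegree_le_iff_coeff_eq_zero]
      intro n hn
      rw [hcL, hcoeff n (by omega)]
    · rw [hcL, hcoeff2]
      exact pow_ne_zero _ hQ0
  refine ⟨L, hLS, hdeg, ?_, ?_, ?_⟩
  · rw [leadingCoeff, hdeg, hcL, hcoeff2]
  · rw [hcL, hS]
    simp [h0]
  · rw [eval_eq_sum_range, hdeg]
    simp only [one_pow, mul_one]
    have htel : ∀ (b : PowerSeries ℤ) (m : ℕ), ∑ i ∈ Finset.range (m + 1),
        PowerSeries.coeff i ((1 - PowerSeries.X) * b) = PowerSeries.coeff m b := by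
      intro b m
      induction m with
      | zero => simp
      | succ m ih =>
        rw [Finset.sum_range_succ, ih, sub_mul, one_mul, map_sub, PowerSeries.coeff_succ_X_mul]
        ring
    have : ∑ i ∈ Finset.range (2 * (g + 1) + 1), L.coeff i =
        PowerSeries.coeff (2 * (g + 1)) ((1 - PowerSeries.C Q * PowerSeries.X) *
          PowerSeries.mk a) := by
      rw [← htel]
      exact Finset.sum_congr rfl fun i _ => hcL i
    rw [this, show 2 * (g + 1) = (2 * g + 1) + 1 by ring, sub_mul, one_mul, map_sub, mul_assoc,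
      PowerSeries.coeff_C_mul, PowerSeries.coeff_succ_X_mul, PowerSeries.coeff_mk,
      PowerSeries.coeff_mk]
    apply mul_right_cancel₀ hQ1
    have e1 := h1' 0
    have e2 := h1' 1
    rw [add_zero] at e1
    rw [sub_mul, mul_assoc, e1, e2]
    ring

/-- integrality of the reciprocal roots -/
theorem isIntegral_of_prd {L : ℤ[X]} (h0 : L.coeff 0 = 1) {s : Multiset ℂ}
    (hL : L.map (Int.castRingHom ℂ) = prd s) {a : ℂ} (ha : a ∈ s) (ha0 : a ≠ 0) :
    IsIntegral ℤ a := by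
  have hroot : (prd s).eval a⁻¹ = 0 := by
    unfold prd
    rw [← coe_evalRingHom, map_multiset_prod, Multiset.map_map, Multiset.prod_eq_zero_iff,
      Multiset.mem_map]
    refine ⟨a, ha, ?_⟩
    simp [ha0]
  rw [← hL, eval_map] at hroot
  letI : Invertible a⁻¹ := invertibleOfNonzero (inv_ne_zero ha0)
  have h1 : eval₂ (Int.castRingHom ℂ) (⅟(a⁻¹)) L.reverse = 0 :=
    (eval₂_reverse_eq_zero_iff _ _ _).mpr hroot
  rw [invOf_eq_inv, inv_inv] at h1
  refine ⟨L.reverse, ?_, h1⟩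
  rw [Monic, reverse_leadingCoeff, trailingCoeff, natTrailingDegree_eq_zero_of_constantCoeff_ne_zero]
  · exact h0
  · rw [constantCoeff_apply, h0]; exact one_ne_zero

end Fermat.Agent.Zeta
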