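import Mathlib

/-! ℓ-adic growth of `∏ (1 - a^r)`. -/

set_option autoImplicit false

open Polynomial

namespace Fermat.Agent.Zeta

theorem exists_pow_sub_one_mem (s : Multiset ℂ) (hint : ∀ a ∈ s, IsIntegral ℤ a) (Q : ℤ)
    (hprod : s.prod = (Q : ℂ)) (n : ℕ) (hn : n ≠ 0) (hQ : IsCoprime Q (n : ℤ)) :
    ∃ r₀ : ℕ, r₀ ≠ 0 ∧ ∀ a ∈ s, ∃ b : ℂ, IsIntegral ℤ b ∧ a ^ r₀ = 1 + n * b := by
  classical
  set R : Subalgebra ℤ ℂ := Algebra.adjoin ℤ (s.toFinset : Set ℂ) with hR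
  have hfg : R.toSubmodule.FG := by
    apply fg_adjoin_of_finite (Finset.finite_toSet _)
    intro x hx
    exact hint x (by simpa using hx)
  have hfin : Module.Finite ℤ R := Module.Finite.iff_fg.mpr hfg
  set I : Ideal R := Ideal.span {(n : R)} with hI
  have hfinQ : Finite (R ⧸ I) := by
    have h1 : Module.Finite ℤ (R ⧸ I) := by
      exact Module.Finite.of_surjective (Ideal.Quotient.mkₐ ℤ I).toLinearMap
        (Ideal.Quotient.mkₐ_surjective ℤ I)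
    apply Module.finite_of_fg_torsion (R ⧸ I)
    intro x
    refine ⟨⟨(n : ℤ), mem_nonZeroDivisors_of_ne_zero (by exact_mod_cast hn)⟩, ?_⟩
    obtain ⟨x, rfl⟩ := Ideal.Quotient.mk_surjective x
    rw [Submonoid.mk_smul, zsmul_eq_mul, Int.cast_natCast, ← map_natCast (Ideal.Quotient.mk I),
      ← map_mul, Ideal.Quotient.eq_zero_iff_mem]
    exact I.mul_mem_right _ (Ideal.subset_span rfl)
  have hfinU : Finite (R ⧸ I)ˣ := inferInstance
  refine ⟨Nat.card (R ⧸ I)ˣ, Nat.card_pos.ne', fun a ha => ?_⟩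
  have haR : a ∈ R := Algebra.subset_adjoin (by simpa using ha)
  set a' : R := ⟨a, haR⟩ with ha'
  -- a' is a unit mod I
  have hdvd : ∃ c : R, a' * c = (Q : R) := by
    have h1 : (s.erase a).prod ∈ R := by
      apply Subalgebra.multiset_prod_mem
      intro b hb
      exact Algebra.subset_adjoin (by simpa using Multiset.mem_of_mem_erase hb)
    refine ⟨⟨(s.erase a).prod, h1⟩, Subtype.ext ?_⟩
    show a * (s.erase a).prod = ((Q : R) : ℂ)
    rw [Multiset.prod_erase ha, hprod]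
    simp
  obtain ⟨c, hc⟩ := hdvd
  obtain ⟨u, v, huv⟩ := hQ
  have hunit : IsUnit (Ideal.Quotient.mk I a') := by
    have h2 : Ideal.Quotient.mk I a' * (Ideal.Quotient.mk I (c * (u : R))) = 1 := by
      rw [← map_mul, ← map_one (Ideal.Quotient.mk I), Ideal.Quotient.mk_eq_mk_iff_sub_mem]
      have h3 : a' * (c * (u : R)) - 1 = (n : R) * (-(v : R)) := by
        have h4 : ((u : R) * (Q : R) + (v : R) * (n : R)) = 1 := by
          have := congrArg (Int.cast : ℤ → R) huv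
          push_cast at this
          exact this
        rw [← mul_assoc, hc]
        linear_combination h4
      rw [h3]
      exact I.mul_mem_right _ (Ideal.subset_span rfl)
    exact IsUnit.of_mul_eq_one _ h2
  obtain ⟨w, hw⟩ := hunit
  have h5 : (Ideal.Quotient.mk I a') ^ Nat.card (R ⧸ I)ˣ = 1 := by
    rw [← hw, ← Units.val_pow_eq_pow_val, pow_card_eq_one', Units.val_one]
  rw [← map_pow, ← map_one (Ideal.Quotient.mk I), Ideal.Quotient.mk_eq_mk_iff_sub_mem,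
    hI, Ideal.mem_span_singleton'] at h5
  obtain ⟨b, hb⟩ := h5
  refine ⟨b, ?_, ?_⟩
  · have : IsIntegral ℤ b := Algebra.IsIntegral.isIntegral b
    exact this.map R.val
  · have h6 := congrArg (Subtype.val) hb
    simp only [MulMemClass.coe_mul, SubringClass.coe_natCast, AddSubgroupClass.coe_sub,
      SubmonoidClass.coe_pow, OneMemClass.coe_one] at h6
    rw [mul_comm (n : ℂ)]
    linear_combination -h6

theorem exists_pow_one_add (n : ℂ) {b : ℂ} (hn : IsIntegral ℤ n) (hb : IsIntegral ℤ b) (t : ℕ) :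
    ∃ c : ℂ, IsIntegral ℤ c ∧ (1 + n * b) ^ t = 1 + n * c := by
  induction t with
  | zero => exact ⟨0, isIntegral_zero, by simp⟩
  | succ t ih =>
    obtain ⟨c, hc1, hc2⟩ := ih
    refine ⟨c + b + n * c * b, (hc1.add hb).add ((hn.mul hc1).mul hb), ?_⟩
    rw [pow_succ, hc2]; ring

/-- the key step -/
theorem exists_growth (ℓ : ℕ) [hℓ : Fact ℓ.Prime] (s : Multiset ℂ) (hint : ∀ a ∈ s, IsIntegral ℤ a)
    {r : ℕ} (hr : ∀ a ∈ s, ∃ b : ℂ, IsIntegral ℤ b ∧ a ^ r = 1 + ((ℓ ^ 2 : ℕ) : ℂ) * b)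
    {h h' : ℕ} (h1 : (s.map fun a => 1 - a ^ r).prod = (h : ℂ))
    (h2 : (s.map fun a => 1 - a ^ (ℓ * r)).prod = (h' : ℂ)) (h0 : h ≠ 0) :
    ∃ N : ℕ, h' = h * ℓ ^ s.card * N ∧ ¬ ℓ ∣ N := by
  classical
  have hℓ0 : (ℓ : ℂ) ≠ 0 := by exact_mod_cast hℓ.out.ne_zero
  have hℓint : IsIntegral ℤ (ℓ : ℂ) := by
    have : IsIntegral ℤ (algebraMap ℤ ℂ (ℓ : ℤ)) := isIntegral_algebraMap
    simpa using this
  have key : ∀ a ∈ s, ∃ c : ℂ, IsIntegral ℤ c ∧
      1 - a ^ (ℓ * r) = (1 - a ^ r) * (ℓ * (1 + ℓ * c)) := by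
    intro a ha
    obtain ⟨b, hb1, hb2⟩ := hr a ha
    have h3 : 1 - a ^ (ℓ * r) = (1 - a ^ r) * ∑ i ∈ Finset.range ℓ, (a ^ r) ^ i := by
      rw [mul_comm ℓ r, pow_mul, mul_neg_geom_sum]
    have h4 : ∀ i : ℕ, ∃ c : ℂ, IsIntegral ℤ c ∧ (a ^ r) ^ i = 1 + ((ℓ ^ 2 : ℕ) : ℂ) * c := by
      intro i
      rw [hb2]
      refine exists_pow_one_add _ ?_ hb1 i
      push_cast
      exact hℓint.pow 2
    choose c hc1 hc2 using h4
    refine ⟨∑ i ∈ Finset.range ℓ, c i, IsIntegral.sum _ fun i _ => hc1 i, ?_⟩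
    rw [h3]
    congr 1
    simp only [hc2]
    rw [Finset.sum_add_distrib, ← Finset.mul_sum]
    simp only [Finset.sum_const, Finset.card_range, nsmul_eq_mul, mul_one]
    push_cast
    ring
  have key2 : ∀ t : Multiset ℂ, (∀ a ∈ t, a ∈ s) → ∃ c : ℂ, IsIntegral ℤ c ∧
      (t.map fun a => 1 - a ^ (ℓ * r)).prod =
        (t.map fun a => 1 - a ^ r).prod * (ℓ ^ t.card * (1 + ℓ * c)) := by
    intro t
    induction t using Multiset.induction_on with
    | empty => intro _; exact ⟨0, isIntegral_zero, by simp⟩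
    | cons a t ih =>
      intro ht
      obtain ⟨c, hc1, hc2⟩ := ih fun b hb => ht b (Multiset.mem_cons_of_mem hb)
      obtain ⟨d, hd1, hd2⟩ := key a (ht a (Multiset.mem_cons_self a t))
      refine ⟨c + d + ℓ * c * d, (hc1.add hd1).add ((hℓint.mul hc1).mul hd1), ?_⟩
      rw [Multiset.map_cons, Multiset.prod_cons, hc2, hd2, Multiset.map_cons, Multiset.prod_cons,
        Multiset.card_cons, pow_succ]
      ring
  obtain ⟨c, hc1, hc2⟩ := key2 s fun a ha => ha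
  rw [h1, h2] at hc2
  have hh0 : (h : ℂ) ≠ 0 := by exact_mod_cast h0
  have hden : (h : ℂ) * ℓ ^ s.card ≠ 0 := mul_ne_zero hh0 (pow_ne_zero _ hℓ0)
  have hrat : (1 + ℓ * c : ℂ) = ((h' : ℚ) / (h * ℓ ^ s.card) : ℚ) := by
    push_cast
    rw [eq_div_iff hden, hc2]; ring
  have hintegral : IsIntegral ℤ (1 + ℓ * c : ℂ) := isIntegral_one.add (hℓint.mul hc1)
  have hint' : IsIntegral ℤ (((h' : ℚ) / (h * ℓ ^ s.card) : ℚ)) := by
    rw [hrat] at hintegral
    have h5 : ((((h' : ℚ) / (h * ℓ ^ s.card) : ℚ)) : ℂ) =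
      algebraMap ℚ ℂ ((h' : ℚ) / (h * ℓ ^ s.card)) := rfl
    rw [h5] at hintegral
    exact (isIntegral_algebraMap_iff (algebraMap ℚ ℂ).injective).mp hintegral
  obtain ⟨N, hN⟩ := IsIntegrallyClosed.isIntegral_iff.mp hint'
  have hN' : (N : ℚ) = (h' : ℚ) / (h * ℓ ^ s.card) := by
    rw [← hN]; simp
  have hNC : (1 + ℓ * c : ℂ) = (N : ℂ) := by
    rw [hrat, ← hN']; simp
  have hdenQ : (h : ℚ) * ℓ ^ s.card ≠ 0 := by
    have : (h : ℚ) ≠ 0 := by exact_mod_cast h0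
    have h6 : (ℓ : ℚ) ≠ 0 := by exact_mod_cast hℓ.out.ne_zero
    exact mul_ne_zero this (pow_ne_zero _ h6)
  have hN0 : 0 ≤ N := by
    have : (0 : ℚ) ≤ N := by rw [hN']; positivity
    exact_mod_cast this
  obtain ⟨M, rfl⟩ := Int.eq_ofNat_of_zero_le hN0
  refine ⟨M, ?_, ?_⟩
  · have : (h' : ℚ) = (h : ℚ) * ℓ ^ s.card * M := by
      have h7 : ((M : ℤ) : ℚ) * (h * ℓ ^ s.card) = h' := by
        rw [hN', div_mul_cancel₀ _ hdenQ]
      rw [← h7]; push_cast; ring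
    exact_mod_cast this
  · rintro ⟨m, rfl⟩
    -- 1 = ℓ (m - c)
    have h8 : (ℓ : ℂ) * ((m : ℂ) - c) = 1 := by
      push_cast at hNC
      linear_combination -hNC
    have h9 : IsIntegral ℤ ((m : ℂ) - c) := by
      have : IsIntegral ℤ (algebraMap ℤ ℂ (m : ℤ)) := isIntegral_algebraMap
      refine IsIntegral.sub ?_ hc1
      simpa using this
    have h10 : (m : ℂ) - c = algebraMap ℚ ℂ ((ℓ : ℚ)⁻¹) := by
      have : (algebraMap ℚ ℂ ((ℓ : ℚ)⁻¹)) = (ℓ : ℂ)⁻¹ := by simp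
      rw [this]
      exact eq_inv_of_mul_eq_one_right h8
    rw [h10, isIntegral_algebraMap_iff (algebraMap ℚ ℂ).injective] at h9
    obtain ⟨z, hz⟩ := IsIntegrallyClosed.isIntegral_iff.mp h9
    have h11 : (ℓ : ℚ) * z = 1 := by
      have : (z : ℚ) = (ℓ : ℚ)⁻¹ := by rw [← hz]; simp
      rw [this, mul_inv_cancel₀]
      exact_mod_cast hℓ.out.ne_zero
    have h12 : (ℓ : ℤ) * z = 1 := by exact_mod_cast h11
    have h13 : (ℓ : ℤ) ∣ 1 := ⟨z, h12.symm⟩
    have h14 : ℓ ∣ 1 := by exact_mod_cast h13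
    exact hℓ.out.one_lt.ne' (Nat.dvd_one.mp h14)

end Fermat.Agent.Zeta
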