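import Fermat.Agent.Zeta.ClassCount
import Fermat.Agent.Zeta.Poly
import Fermat.Agent.Zeta.Roots

/-! The zeta function. -/

set_option autoImplicit false

open AlgebraicCurve WithZero IsLocalRing Module

namespace Fermat.Agent.Zeta

open Fermat.Agent.RRC

/-- the fixed subgroup of `Pic0` -/
def fixedPic {K F : Type*} [Field K] [Field F] [Algebra K F] (φ : SemilinearAut K F) :
    AddSubgroup (Pic0 K F) where
  carrier := {c | φ • c = c}
  zero_mem' := smul_zero (A := Pic0 K F) φ
  add_mem' := by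
    intro a b (ha : φ • a = a) (hb : φ • b = b)
    show φ • (a + b) = a + b
    rw [smul_add, ha, hb]
  neg_mem' := by
    intro a (ha : φ • a = a)
    show φ • (-a) = -a
    rw [smul_neg, ha]

variable {K F : Type*} [Field K] [Field F] [Algebra K F]

theorem mem_fixedPic {φ : SemilinearAut K F} {c : Pic0 K F} : c ∈ fixedPic φ ↔ φ • c = c := Iff.rfl

/-- the effective invariant divisors -/
abbrev EI (φ : SemilinearAut K F) (n : ℕ) : Set (Divisor K F) :=
  effInv (MulAction.toPerm φ : Equiv.Perm (Place K F)) n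

variable [FF K F] {p : ℕ} {φ : SemilinearAut K F} {q : ℕ}

theorem finite_EI (h : Frob p φ q) (n : ℕ) : (EI φ n).Finite := by
  apply finite_effInv
  intro m hm
  have := h.finite_fixed (n := m) (by omega)
  simpa only [Frob.toPerm_pow] using this

theorem cls_mem_fixedPic {P₀ : Place K F} (hP₀ : φ • P₀ = P₀) {D : Divisor K F} (hD : φ • D = D) :
    cls P₀ D ∈ fixedPic φ := by
  rw [mem_fixedPic, cls_smul P₀ hP₀, hD]

variable [IsAlgClosed K] [CharP K p]

theorem exists_EI (h : Frob p φ q) {P₀ : Place K F} (hP₀ : φ • P₀ = P₀) {c : Pic0 K F}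
    (hc : φ • c = c) {n : ℕ} (hn : genusFF K F ≤ n) : ∃ E ∈ EI φ n, cls P₀ E = c := by
  obtain ⟨D, hD, hDc⟩ := exists_cls P₀ c (n : ℤ)
  have h1 := card_class h hP₀ hc hD hDc
  have h2 := riemann_inequality D
  rw [hD] at h2
  have h3 : 1 ≤ finrank K (riemannRochSpace D) := by omega
  have h4 : 2 ≤ q ^ finrank K (riemannRochSpace D) :=
    h.two_le.trans (Nat.le_self_pow (by omega) q)
  by_contra hcon
  have h5 : IsEmpty {E : Divisor K F // E ∈ EI φ n ∧ cls P₀ E = c} :=
    ⟨fun E => hcon ⟨E.1, E.2.1, E.2.2⟩⟩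
  rw [Nat.card_of_isEmpty, zero_mul] at h1
  omega

theorem finite_fixedPic (h : Frob p φ q) {P₀ : Place K F} (hP₀ : φ • P₀ = P₀) :
    Finite (fixedPic φ) := by
  have hfin : Finite (EI φ (genusFF K F)) := finite_EI h _
  have hsurj : Function.Surjective (fun E : EI φ (genusFF K F) =>
      (⟨cls P₀ E.1, cls_mem_fixedPic hP₀ (mem_effInv.mp E.2).2.1⟩ : fixedPic φ)) := by
    rintro ⟨c, hc⟩
    obtain ⟨E, hE, hEc⟩ := exists_EI h hP₀ hc (le_refl (genusFF K F))
    exact ⟨⟨E, hE⟩, Subtype.ext hEc⟩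
  exact Finite.of_surjective _ hsurj

/-- weighted sum over effective invariant divisors, in terms of classes -/
theorem sum_EI (h : Frob p φ q) {P₀ : Place K F} (hP₀ : φ • P₀ = P₀) {R : Type*} [CommRing R]
    (f : Pic0 K F → R) (n : ℕ) (rep : Pic0 K F → Divisor K F)
    (hrep : ∀ c, Divisor.degree (rep c) = n ∧ cls P₀ (rep c) = c) :
    (∑ᶠ D ∈ EI φ n, f (cls P₀ D)) * (q - 1) =
      ∑ᶠ c ∈ (fixedPic φ : Set (Pic0 K F)),
        f c * ((q : R) ^ finrank K (riemannRochSpace (rep c)) - 1) := by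
  classical
  have hfin := finite_EI h n
  have hG : (fixedPic φ : Set (Pic0 K F)).Finite := finite_fixedPic h hP₀
  rw [finsum_mem_eq_finite_toFinset_sum _ hfin, finsum_mem_eq_finite_toFinset_sum _ hG]
  rw [← Finset.sum_fiberwise_of_maps_to (t := hG.toFinset) (g := cls P₀)]
  · rw [Finset.sum_mul]
    refine Finset.sum_congr rfl fun c hc => ?_
    rw [Set.Finite.mem_toFinset] at hc
    have h1 := card_class h hP₀ hc (hrep c).1 (hrep c).2
    have h2 : Nat.card {E : Divisor K F // E ∈ EI φ n ∧ cls P₀ E = c} =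
        (hfin.toFinset.filter fun E => cls P₀ E = c).card := by
      apply Nat.subtype_card
      intro E
      rw [Finset.mem_filter, Set.Finite.mem_toFinset]
    have h3 : ∀ D ∈ hfin.toFinset.filter fun E => cls P₀ E = c, f (cls P₀ D) = f c := by
      intro D hD
      rw [(Finset.mem_filter.mp hD).2]
    rw [Finset.sum_congr rfl h3, Finset.sum_const, nsmul_eq_mul, ← h2]
    have h4 := congrArg (Nat.cast : ℕ → R) h1
    have hq : 1 ≤ q := h.two_le.trans' (by norm_num)
    push_cast [Nat.cast_sub hq] at h4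
    rw [← h4]
    ring
  · intro D hD
    rw [Set.Finite.mem_toFinset] at hD ⊢
    exact cls_mem_fixedPic hP₀ (mem_effInv.mp hD).2.1


omit [IsAlgClosed K] in
theorem exists_rep (P₀ : Place K F) (n : ℕ) : ∃ rep : Pic0 K F → Divisor K F,
    ∀ c, Divisor.degree (rep c) = n ∧ cls P₀ (rep c) = c := by
  choose rep hrep using fun c : Pic0 K F => exists_cls P₀ c (n : ℤ)
  exact ⟨rep, hrep⟩

theorem sum_EI_large (h : Frob p φ q) {P₀ : Place K F} (hP₀ : φ • P₀ = P₀) {R : Type*}
    [CommRing R] (f : Pic0 K F → R) (n : ℕ) (hg : 1 ≤ genusFF K F)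
    (hn : 2 * genusFF K F - 1 ≤ n) :
    (∑ᶠ D ∈ EI φ n, f (cls P₀ D)) * (q - 1) =
      (∑ᶠ c ∈ (fixedPic φ : Set (Pic0 K F)), f c) * ((q : R) ^ (n + 1 - genusFF K F) - 1) := by
  have hG : (fixedPic φ : Set (Pic0 K F)).Finite := finite_fixedPic h hP₀
  obtain ⟨rep, hrep⟩ := exists_rep P₀ n
  rw [sum_EI h hP₀ f n rep hrep, finsum_mem_eq_finite_toFinset_sum _ hG,
    finsum_mem_eq_finite_toFinset_sum _ hG, Finset.sum_mul]
  refine Finset.sum_congr rfl fun c _ => ?_
  have h1 : (finrank K (riemannRochSpace (rep c)) : ℤ) = n + 1 - genusFF K F := by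
    rw [finrank_L_of_large, (hrep c).1]
    rw [(hrep c).1]
    omega
  have h2 : finrank K (riemannRochSpace (rep c)) = n + 1 - genusFF K F := by omega
  rw [h2]

/-- the number of effective invariant divisors of degree `2g-2` -/
theorem sum_EI_canonical (h : Frob p φ q) {P₀ : Place K F} (hP₀ : φ • P₀ = P₀)
    (hg : 1 ≤ genusFF K F) :
    ((EI φ (2 * genusFF K F - 2)).ncard : ℤ) * (q - 1) =
      (Nat.card (fixedPic φ) : ℤ) * ((q : ℤ) ^ (genusFF K F - 1) - 1) +
        ((q : ℤ) ^ genusFF K F - (q : ℤ) ^ (genusFF K F - 1)) := by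
  classical
  have hG : (fixedPic φ : Set (Pic0 K F)).Finite := finite_fixedPic h hP₀
  obtain ⟨rep, hrep⟩ := exists_rep P₀ (2 * genusFF K F - 2)
  have h1 := sum_EI h hP₀ (fun _ => (1 : ℤ)) (2 * genusFF K F - 2) rep hrep
  rw [finsum_mem_eq_finite_toFinset_sum _ (finite_EI h _), Finset.sum_const, nsmul_eq_mul, mul_one,
    ← Set.ncard_eq_toFinset_card _ (finite_EI h _)] at h1
  rw [h1, finsum_mem_eq_finite_toFinset_sum _ hG]
  -- the canonical class
  obtain ⟨W, hW⟩ := exists_canonical K F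
  obtain ⟨hW1, hW2⟩ := degree_canonical hW
  have hell : ∀ D : Divisor K F, Divisor.degree D = 2 * genusFF K F - 2 →
      finrank K (riemannRochSpace D) = if cls P₀ D = cls P₀ W then genusFF K F
        else genusFF K F - 1 := by
    intro D hD
    have h2 := riemannRoch D
    rw [hW D] at h2
    have hdeg : Divisor.degree W = Divisor.degree D := by rw [hW1, hD]
    split_ifs with h3
    · have h4 : Divisor.IsPrincipal (W - D) := (cls_eq_iff P₀ hdeg).mp h3.symm
      obtain ⟨f, hf0, hf⟩ := isPrincipal_iff.mp h4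
      have h5 : finrank K (riemannRochSpace (W - D)) = 1 := by
        rw [hf, ← zero_add (div K f), finrank_L_add_div _ hf0, finrank_L_zero]
      rw [h5] at h2
      omega
    · have h5 : finrank K (riemannRochSpace (W - D)) = 0 := by
        rw [Submodule.finrank_eq_zero, eq_bot_iff]
        intro f hf
        rw [Submodule.mem_bot]
        by_contra hf0
        apply h3
        rw [mem_L_iff hf0] at hf
        have h6 : (0 : Divisor K F) = div K f + (W - D) :=
          eq_of_le_of_degree_eq hf (by rw [map_zero, map_add, degree_div, map_sub, hdeg]; ring)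
        have h7 : D - W = div K f := by
          have : D - W = div K f + (W - D) + (D - W) := by rw [← h6, zero_add]
          rw [this]; abel
        rw [cls_eq_iff P₀ hdeg.symm, h7]
        exact isPrincipal_div hf0
      rw [h5] at h2
      omega
  have hWφ : φ • cls P₀ W = cls P₀ W := by
    have h3 := hell (φ • W) (by rw [SemilinearAut.degree_smul, hW1])
    rw [finrank_L_smul, hW2] at h3
    rw [cls_smul P₀ hP₀]
    by_contra hcon
    rw [if_neg hcon] at h3
    omega
  have hterm : ∀ c ∈ hG.toFinset, (1 : ℤ) * ((q : ℤ) ^ finrank K (riemannRochSpace (rep c)) - 1) =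
      ((q : ℤ) ^ (genusFF K F - 1) - 1) + if c = cls P₀ W then
        ((q : ℤ) ^ genusFF K F - (q : ℤ) ^ (genusFF K F - 1)) else 0 := by
    intro c _
    rw [hell (rep c) (by rw [(hrep c).1]; omega), (hrep c).2]
    split_ifs <;> ring
  rw [Finset.sum_congr rfl hterm, Finset.sum_add_distrib, Finset.sum_const, nsmul_eq_mul,
    Finset.sum_ite_eq' hG.toFinset (cls P₀ W), if_pos (by
      rw [Set.Finite.mem_toFinset]; exact hWφ), ← Set.ncard_eq_toFinset_card _ hG]
  rfl

omit [IsAlgClosed K] in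
theorem EI_zero : EI φ 0 = {0} := by
  ext D
  rw [mem_effInv, Set.mem_singleton_iff]
  constructor
  · rintro ⟨h1, -, h3⟩
    exact (eq_of_le_of_degree_eq h1 (by rw [h3, map_zero]; rfl)).symm
  · rintro rfl
    exact ⟨le_rfl, smul_zero _, by simp⟩

/-- **rationality and functional equation** of the zeta function -/
theorem zeta_main (h : Frob p φ q) {P₀ : Place K F} (hP₀ : φ • P₀ = P₀)
    (hg : 1 ≤ genusFF K F) :
    ∃ L : Polynomial ℤ, ((L : Polynomial ℤ) : PowerSeries ℤ) =
        (1 - PowerSeries.X) * ((1 - PowerSeries.C (q : ℤ) * PowerSeries.X) *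
          PowerSeries.mk fun n => ((EI φ n).ncard : ℤ)) ∧
      L.natDegree = 2 * genusFF K F ∧ L.leadingCoeff = (q : ℤ) ^ genusFF K F ∧
      L.coeff 0 = 1 ∧ L.eval 1 = (Nat.card (fixedPic φ) : ℤ) := by
  have hq := h.two_le
  apply zeta_poly hg
  · exact_mod_cast (by omega : q ≠ 1)
  · exact_mod_cast (by omega : q ≠ 0)
  · rw [EI_zero, Set.ncard_singleton]; rfl
  · intro n hn
    have h1 := sum_EI_large h hP₀ (fun _ => (1 : ℤ)) n hg hn
    have hG : (fixedPic φ : Set (Pic0 K F)).Finite := finite_fixedPic h hP₀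
    rw [finsum_mem_eq_finite_toFinset_sum _ (finite_EI h _), Finset.sum_const, nsmul_eq_mul,
      mul_one, ← Set.ncard_eq_toFinset_card _ (finite_EI h _),
      finsum_mem_eq_finite_toFinset_sum _ hG,
      Finset.sum_const, nsmul_eq_mul, mul_one, ← Set.ncard_eq_toFinset_card _ hG] at h1
    exact h1
  · exact sum_EI_canonical h hP₀ hg

end Fermat.Agent.Zeta
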