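import Mathlib

/-! The group theory: from class numbers to torsion. -/

set_option autoImplicit false

namespace Fermat.Agent.Zeta

variable {A : Type*} [AddCommGroup A]

/-- elements killed by `n` -/
def tor (A : Type*) [AddCommGroup A] (n : ℕ) : AddSubgroup A := (nsmulAddMonoidHom n : A →+ A).ker

theorem mem_tor {n : ℕ} {a : A} : a ∈ tor A n ↔ n • a = 0 := Iff.rfl

variable {M : Type*} [Monoid M] [DistribMulAction M A]

/-- fixed points of `φ ^ n` -/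
def fixg (A : Type*) [AddCommGroup A] {M : Type*} [Monoid M] [DistribMulAction M A] (φ : M)
    (n : ℕ) : AddSubgroup A where
  carrier := {a | φ ^ n • a = a}
  zero_mem' := smul_zero (φ ^ n)
  add_mem' := by
    intro a b (ha : φ ^ n • a = a) (hb : φ ^ n • b = b)
    show φ ^ n • (a + b) = a + b
    rw [smul_add, ha, hb]
  neg_mem' := by
    intro a (ha : φ ^ n • a = a)
    show φ ^ n • (-a) = -a
    rw [smul_neg, ha]

theorem mem_fixg {φ : M} {n : ℕ} {a : A} : a ∈ fixg A φ n ↔ φ ^ n • a = a := Iff.rfl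

theorem fixg_mono (φ : M) {m n : ℕ} (h : m ∣ n) : fixg A φ m ≤ fixg A φ n := by
  obtain ⟨t, rfl⟩ := h
  intro a ha
  rw [mem_fixg] at ha ⊢
  rw [pow_mul]
  induction t with
  | zero => simp
  | succ t ih => rw [pow_succ, mul_smul, ha, ih]

/-- the norm `∑_{i<s} φ^{r i}` -/
def nm (φ : M) (r s : ℕ) : A →+ A :=
  ∑ i ∈ Finset.range s, DistribSMul.toAddMonoidHom A (φ ^ (r * i))

theorem nm_apply (φ : M) (r s : ℕ) (a : A) :
    nm φ r s a = ∑ i ∈ Finset.range s, φ ^ (r * i) • a := by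
  simp [nm]

theorem nm_mem {φ : M} {r s : ℕ} {a : A} (ha : a ∈ fixg A φ (r * s)) :
    nm φ r s a ∈ fixg A φ r := by
  rw [mem_fixg] at ha ⊢
  rw [nm_apply, Finset.smul_sum]
  have h2 := Finset.sum_range_succ (fun i => φ ^ (r * i) • a) s
  have h3 := Finset.sum_range_succ' (fun i => φ ^ (r * i) • a) s
  rw [h2] at h3
  simp only [ha, mul_zero, pow_zero, one_smul, add_left_inj] at h3
  rw [h3]
  refine Finset.sum_congr rfl fun i _ => ?_
  rw [smul_smul, ← pow_add]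
  congr 2
  ring

theorem nm_of_mem {φ : M} {r s : ℕ} {a : A} (ha : a ∈ fixg A φ r) :
    nm φ r s a = s • a := by
  rw [nm_apply]
  have : ∀ i ∈ Finset.range s, φ ^ (r * i) • a = a :=
    fun i _ => fixg_mono φ (dvd_mul_right r i) ha
  rw [Finset.sum_congr rfl this, Finset.sum_const, Finset.card_range]

/-- the norm as a homomorphism between fixed groups -/
def nmH (A : Type*) [AddCommGroup A] {M : Type*} [Monoid M] [DistribMulAction M A] (φ : M) (r s : ℕ) : fixg A φ (r * s) →+ fixg A φ r where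
  toFun a := ⟨nm φ r s a, nm_mem a.2⟩
  map_zero' := Subtype.ext (map_zero _)
  map_add' a b := Subtype.ext (map_add (nm φ r s) a.1 b.1)

theorem card_pow_of_killed {B : Type*} [AddCommGroup B] [Finite B] {ℓ : ℕ} [hℓ : Fact ℓ.Prime]
    (h : ∀ x : B, ℓ • x = 0) : ∃ n : ℕ, Nat.card B = ℓ ^ n := by
  have h1 : IsPGroup ℓ (Multiplicative B) := fun x => ⟨1, by
    rw [pow_one]
    exact congrArg Multiplicative.ofAdd (h (Multiplicative.toAdd x))⟩
  obtain ⟨n, hn⟩ := IsPGroup.iff_card.mp h1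
  exact ⟨n, hn⟩

theorem card_range_mul_ker {B C : Type*} [AddCommGroup B] [AddCommGroup C] (f : B →+ C) :
    Nat.card f.range * Nat.card f.ker = Nat.card B := by
  rw [← AddSubgroup.index_ker, mul_comm, AddSubgroup.card_mul_index]

/-- the number of elements killed by `ℓ` in a finite group without elements of order `ℓ²` -/
theorem card_tor_of {B : Type*} [AddCommGroup B] [Finite B] {ℓ : ℕ} [hℓ : Fact ℓ.Prime] {n N : ℕ}
    (hcard : Nat.card B = ℓ ^ n * N) (hN : ¬ ℓ ∣ N) (h : ∀ x : B, (ℓ ^ 2) • x = 0 → ℓ • x = 0) :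
    Nat.card (tor B ℓ) = ℓ ^ n := by
  set f : B →+ B := nsmulAddMonoidHom ℓ with hf
  have h1 := card_range_mul_ker f
  have h2 : ¬ ℓ ∣ Nat.card f.range := by
    intro hdvd
    obtain ⟨x, hx⟩ := exists_prime_addOrderOf_dvd_card' (G := f.range) ℓ hdvd
    obtain ⟨y, hy⟩ := x.2
    have hx0 : x ≠ 0 := by
      intro h0
      rw [h0, addOrderOf_zero] at hx
      exact hℓ.out.one_lt.ne hx
    have h3 : ℓ • x = 0 := by rw [← hx]; exact addOrderOf_nsmul_eq_zero x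
    have h4 : ℓ • x.1 = 0 := by rw [← AddSubgroup.coe_nsmul, h3]; rfl
    rw [← hy] at h4
    have h5 : (ℓ ^ 2) • y = 0 := by
      rw [pow_two, mul_nsmul]
      exact h4
    have h6 : ℓ • y = 0 := h y h5
    apply hx0
    apply Subtype.ext
    rw [← hy]
    exact h6
  have h3 : ∀ x : f.ker, ℓ • x = 0 := fun x => Subtype.ext x.2
  obtain ⟨m, hm⟩ := card_pow_of_killed h3
  rw [hcard, hm] at h1
  have h4 : m = n := by
    have hcop1 : Nat.Coprime (ℓ ^ m) N := Nat.Coprime.pow_left _ ((Nat.Prime.coprime_iff_not_dvd hℓ.out).mpr hN)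
    have hcop2 : Nat.Coprime (ℓ ^ n) (Nat.card f.range) :=
      Nat.Coprime.pow_left _ ((Nat.Prime.coprime_iff_not_dvd hℓ.out).mpr h2)
    have d1 : ℓ ^ m ∣ ℓ ^ n := hcop1.dvd_of_dvd_mul_right (by rw [← h1]; exact dvd_mul_left _ _)
    have d2 : ℓ ^ n ∣ ℓ ^ m := hcop2.dvd_of_dvd_mul_left (by rw [h1]; exact dvd_mul_right _ _)
    exact le_antisymm ((Nat.pow_dvd_pow_iff_le_right hℓ.out.one_lt).mp d1)
      ((Nat.pow_dvd_pow_iff_le_right hℓ.out.one_lt).mp d2)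
  show Nat.card f.ker = ℓ ^ n
  rw [hm, h4]

section main

variable {φ : M} {ℓ : ℕ} [hℓ : Fact ℓ.Prime] {G : ℕ}

/-- the input data -/
structure TorData (A : Type*) [AddCommGroup A] {M : Type*} [Monoid M] [DistribMulAction M A]
    (φ : M) (ℓ : ℕ) (G : ℕ) : Prop where
  fin : ∀ r : ℕ, r ≠ 0 → Finite (fixg A φ r)
  per : ∀ a : A, ∃ r : ℕ, r ≠ 0 ∧ a ∈ fixg A φ r
  surj : ∀ r s : ℕ, r ≠ 0 → s ≠ 0 → ∀ c ∈ fixg A φ r, ∃ d ∈ fixg A φ (r * s), nm φ r s d = c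
  growth : ∃ r₀ : ℕ, r₀ ≠ 0 ∧ ∀ r : ℕ, r ≠ 0 → r₀ ∣ r →
    ∃ N : ℕ, Nat.card (fixg A φ (r * ℓ)) = Nat.card (fixg A φ r) * ℓ ^ G * N ∧ ¬ ℓ ∣ N

omit hℓ in
theorem TorData.surjective (h : TorData A φ ℓ G) {r s : ℕ} (hr : r ≠ 0) (hs : s ≠ 0) :
    Function.Surjective (nmH A φ r s) := by
  rintro ⟨c, hc⟩
  obtain ⟨d, hd, hdc⟩ := h.surj r s hr hs c hc
  exact ⟨⟨d, hd⟩, Subtype.ext hdc⟩

theorem TorData.card_ker (h : TorData A φ ℓ G) {r : ℕ} (hr : r ≠ 0) {N : ℕ}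
    (hN : Nat.card (fixg A φ (r * ℓ)) = Nat.card (fixg A φ r) * ℓ ^ G * N) :
    Nat.card (nmH A φ r ℓ).ker = ℓ ^ G * N := by
  have h1 := card_range_mul_ker (nmH A φ r ℓ)
  have h2 : (nmH A φ r ℓ).range = ⊤ :=
    AddMonoidHom.range_eq_top.mpr (h.surjective hr hℓ.out.ne_zero)
  rw [h2, AddSubgroup.card_top, hN, mul_assoc] at h1
  have := h.fin r hr
  exact Nat.eq_of_mul_eq_mul_left Nat.card_pos h1

/-- `ℓ`-torsion of the fixed groups is bounded -/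
theorem TorData.card_le (h : TorData A φ ℓ G) {r₀ : ℕ}
    (hr₀ : ∀ r : ℕ, r ≠ 0 → r₀ ∣ r →
      ∃ N : ℕ, Nat.card (fixg A φ (r * ℓ)) = Nat.card (fixg A φ r) * ℓ ^ G * N ∧ ¬ ℓ ∣ N)
    {r : ℕ} (hr : r ≠ 0) (hdvd : r₀ ∣ r) :
    Nat.card ((tor A ℓ ⊓ fixg A φ r : AddSubgroup A)) ≤ ℓ ^ G := by
  obtain ⟨N, hN1, hN2⟩ := hr₀ r hr hdvd
  have hK := h.card_ker hr hN1
  have hfin := h.fin r hr
  have hfin2 := h.fin (r * ℓ) (Nat.mul_ne_zero hr hℓ.out.ne_zero)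
  have hfin3 : Finite (tor A ℓ ⊓ fixg A φ r : AddSubgroup A) :=
    Finite.of_injective (fun x => (⟨x.1, x.2.2⟩ : fixg A φ r)) fun x y hxy =>
      Subtype.ext (congrArg (fun z : fixg A φ r => z.1) hxy)
  obtain ⟨m, hm⟩ := card_pow_of_killed (B := (tor A ℓ ⊓ fixg A φ r : AddSubgroup A)) (ℓ := ℓ)
    (fun x => Subtype.ext x.2.1)
  -- embed into the kernel
  let j : (tor A ℓ ⊓ fixg A φ r : AddSubgroup A) →+ (nmH A φ r ℓ).ker :=
    { toFun := fun x => ⟨⟨x.1, fixg_mono φ (dvd_mul_right r ℓ) x.2.2⟩, by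
        rw [AddMonoidHom.mem_ker]
        apply Subtype.ext
        show nm φ r ℓ x.1 = 0
        rw [nm_of_mem x.2.2]
        exact x.2.1⟩
      map_zero' := rfl
      map_add' := fun _ _ => rfl }
  have hj : Function.Injective j := fun x y hxy =>
    Subtype.ext (congrArg (fun z => z.1.1) hxy)
  have h1 : Nat.card (tor A ℓ ⊓ fixg A φ r : AddSubgroup A) ∣ Nat.card (nmH A φ r ℓ).ker :=
    AddSubgroup.card_dvd_of_injective j hj
  rw [hK, hm] at h1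
  have hcop1 : Nat.Coprime (ℓ ^ m) N :=
    Nat.Coprime.pow_left _ ((Nat.Prime.coprime_iff_not_dvd hℓ.out).mpr hN2)
  rw [hm]
  exact Nat.le_of_dvd (pow_pos hℓ.out.pos _) (hcop1.dvd_of_dvd_mul_right h1)

theorem TorData.exists_r1 (h : TorData A φ ℓ G) : ∃ r₁ : ℕ, r₁ ≠ 0 ∧
    (∀ r : ℕ, r ≠ 0 → r₁ ∣ r →
      ∃ N : ℕ, Nat.card (fixg A φ (r * ℓ)) = Nat.card (fixg A φ r) * ℓ ^ G * N ∧ ¬ ℓ ∣ N) ∧
    tor A ℓ ≤ fixg A φ r₁ := by
  classical
  obtain ⟨r₀, hr₀0, hr₀⟩ := h.growth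
  -- choose r₁ maximizing
  have hbdd : ∃ n : ℕ, (∃ r : ℕ, r ≠ 0 ∧ r₀ ∣ r ∧
      Nat.card ((tor A ℓ ⊓ fixg A φ r : AddSubgroup A)) = n) ∧
      ∀ m : ℕ, (∃ r : ℕ, r ≠ 0 ∧ r₀ ∣ r ∧
      Nat.card ((tor A ℓ ⊓ fixg A φ r : AddSubgroup A)) = m) → m ≤ n := by
    have hex : ∃ n : ℕ, (∃ r : ℕ, r ≠ 0 ∧ r₀ ∣ r ∧
      Nat.card ((tor A ℓ ⊓ fixg A φ r : AddSubgroup A)) = n) := ⟨_, r₀, hr₀0, dvd_rfl, rfl⟩
    set P : ℕ → Prop := fun n => ∃ r : ℕ, r ≠ 0 ∧ r₀ ∣ r ∧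
      Nat.card ((tor A ℓ ⊓ fixg A φ r : AddSubgroup A)) = n with hP
    have hb : ∀ n, P n → n ≤ ℓ ^ G := by
      rintro n ⟨r, hr, hd, rfl⟩
      exact h.card_le hr₀ hr hd
    refine ⟨Nat.findGreatest P (ℓ ^ G), ?_, ?_⟩
    · obtain ⟨n, hn⟩ := hex
      exact Nat.findGreatest_spec (hb n hn) hn
    · intro m hm
      exact Nat.le_findGreatest (hb m hm) hm
  obtain ⟨n, ⟨r₁, hr₁0, hr₁, hn⟩, hmax⟩ := hbdd
  refine ⟨r₁, hr₁0, fun r hr hd => hr₀ r hr (hr₁.trans hd), ?_⟩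
  intro a ha
  obtain ⟨t, ht0, ht⟩ := h.per a
  have h1 := hmax _ ⟨r₁ * t, Nat.mul_ne_zero hr₁0 ht0, hr₁.mul_right t, rfl⟩
  have hle : (tor A ℓ ⊓ fixg A φ r₁ : AddSubgroup A) ≤ tor A ℓ ⊓ fixg A φ (r₁ * t) :=
    inf_le_inf le_rfl (fixg_mono φ (dvd_mul_right _ _))
  have hfin := h.fin (r₁ * t) (Nat.mul_ne_zero hr₁0 ht0)
  have hfin3 : Finite (tor A ℓ ⊓ fixg A φ (r₁ * t) : AddSubgroup A) :=
    Finite.of_injective (fun x => (⟨x.1, x.2.2⟩ : fixg A φ (r₁ * t))) fun x y hxy =>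
      Subtype.ext (congrArg (fun z : fixg A φ (r₁ * t) => z.1) hxy)
  have heq : (tor A ℓ ⊓ fixg A φ r₁ : AddSubgroup A) = tor A ℓ ⊓ fixg A φ (r₁ * t) :=
    AddSubgroup.eq_of_le_of_card_ge hle (by rw [hn]; exact h1)
  have : a ∈ (tor A ℓ ⊓ fixg A φ (r₁ * t) : AddSubgroup A) :=
    ⟨ha, fixg_mono φ (dvd_mul_left _ _) ht⟩
  rw [← heq] at this
  exact this.2

theorem TorData.exists_r2 (h : TorData A φ ℓ G) : ∃ r₂ : ℕ, r₂ ≠ 0 ∧
    (∀ r : ℕ, r ≠ 0 → r₂ ∣ r →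
      ∃ N : ℕ, Nat.card (fixg A φ (r * ℓ)) = Nat.card (fixg A φ r) * ℓ ^ G * N ∧ ¬ ℓ ∣ N) ∧
    tor A (ℓ ^ 2) ≤ fixg A φ r₂ := by
  obtain ⟨r₁, hr₁0, hr₁, hfix⟩ := h.exists_r1
  refine ⟨r₁ * ℓ, Nat.mul_ne_zero hr₁0 hℓ.out.ne_zero,
    fun r hr hd => hr₁ r hr ((dvd_mul_right _ _).trans hd), ?_⟩
  intro y hy
  rw [mem_tor] at hy
  set σ : M := φ ^ r₁ with hσ
  set δ : A := σ • y - y with hδ
  have h1 : ℓ • y ∈ tor A ℓ := by
    rw [mem_tor, ← mul_nsmul, ← pow_two]; exact hy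
  have h2 : σ • (ℓ • y) = ℓ • y := hfix h1
  have hcomm : ∀ (n : ℕ) (z : A), σ • (n • z) = n • (σ • z) := fun n z =>
    map_nsmul (DistribSMul.toAddMonoidHom A σ) n z
  have h3 : ℓ • δ = 0 := by
    rw [hδ, nsmul_sub, ← hcomm, h2, sub_self]
  have h4 : σ • δ = δ := hfix h3
  have h5 : ∀ i : ℕ, σ ^ i • y = y + i • δ := by
    intro i
    induction i with
    | zero => simp
    | succ i ih =>
      rw [pow_succ', mul_smul, ih, smul_add, hcomm, h4, succ_nsmul]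
      have : σ • y = y + δ := by rw [hδ]; abel
      rw [this]; abel
  rw [mem_fixg, pow_mul, ← hσ, h5, h3, add_zero]

/-- `#A[ℓ] = ℓ^G` -/
theorem TorData.card_tor (h : TorData A φ ℓ G) : Nat.card (tor A ℓ) = ℓ ^ G := by
  obtain ⟨r, hr0, hr, hfix⟩ := h.exists_r2
  obtain ⟨N, hN1, hN2⟩ := hr r hr0 dvd_rfl
  have hK := h.card_ker hr0 hN1
  have hfin2 := h.fin (r * ℓ) (Nat.mul_ne_zero hr0 hℓ.out.ne_zero)
  have htor : tor A ℓ ≤ tor A (ℓ ^ 2) := by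
    intro a ha
    rw [mem_tor] at ha ⊢
    rw [pow_two, mul_nsmul, ha, smul_zero]
  have key := card_tor_of (B := (nmH A φ r ℓ).ker) hK hN2 (by
    rintro ⟨⟨x, hx⟩, hx2⟩ hx3
    have h1 : (ℓ ^ 2) • x = 0 := congrArg (fun z => z.1.1) hx3
    have h2 : x ∈ fixg A φ r := hfix h1
    have h3 : nm φ r ℓ x = 0 := congrArg Subtype.val ((AddMonoidHom.mem_ker).mp hx2)
    rw [nm_of_mem h2] at h3
    exact Subtype.ext (Subtype.ext h3))
  rw [← key]
  let e : tor A ℓ ≃ tor (nmH A φ r ℓ).ker ℓ :=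
    { toFun := fun x => ⟨⟨⟨x.1, fixg_mono φ (dvd_mul_right r ℓ) (hfix (htor x.2))⟩, by
        rw [AddMonoidHom.mem_ker]
        apply Subtype.ext
        show nm φ r ℓ x.1 = 0
        rw [nm_of_mem (hfix (htor x.2))]
        exact x.2⟩, by
        rw [mem_tor]
        exact Subtype.ext (Subtype.ext x.2)⟩
      invFun := fun x => ⟨x.1.1.1, congrArg (fun z : (nmH A φ r ℓ).ker => z.1.1)
        (mem_tor.mp x.2)⟩
      left_inv := fun _ => rfl
      right_inv := fun _ => rfl }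
  exact Nat.card_congr e

/-- divisibility -/
theorem TorData.divisible (h : TorData A φ ℓ G) (a : A) : ∃ b : A, ℓ • b = a := by
  obtain ⟨r₂, hr₂0, hr₂, hfix₂⟩ := h.exists_r2
  obtain ⟨t, ht0, ht⟩ := h.per a
  set r : ℕ := r₂ * t with hr
  have hr0 : r ≠ 0 := Nat.mul_ne_zero hr₂0 ht0
  have ha : a ∈ fixg A φ r := fixg_mono φ (dvd_mul_left _ _) ht
  have hfix : tor A ℓ ≤ fixg A φ r := by
    intro x hx
    refine fixg_mono φ (dvd_mul_right _ _) (hfix₂ ?_)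
    rw [mem_tor] at hx ⊢
    rw [pow_two, mul_nsmul, hx, smul_zero]
  have hrℓ0 : r * ℓ ≠ 0 := Nat.mul_ne_zero hr0 hℓ.out.ne_zero
  have hfinY := h.fin r hr0
  have hfinX := h.fin (r * ℓ) hrℓ0
  set X := fixg A φ (r * ℓ) with hX
  set Y := fixg A φ r with hY
  have hXY : Y ≤ X := fixg_mono φ (dvd_mul_right _ _)
  -- index of `ℓ Z` in `Z`
  have hidx : ∀ Z : AddSubgroup A, tor A ℓ ≤ Z → Finite Z →
      (nsmulAddMonoidHom ℓ : Z →+ Z).range.index = Nat.card (tor A ℓ) := by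
    intro Z hZ hfinZ
    have h1 := card_range_mul_ker (nsmulAddMonoidHom ℓ : Z →+ Z)
    have h2 := AddSubgroup.card_mul_index (nsmulAddMonoidHom ℓ : Z →+ Z).range
    have h3 : Nat.card (nsmulAddMonoidHom ℓ : Z →+ Z).ker = Nat.card (tor A ℓ) := by
      let e : (nsmulAddMonoidHom ℓ : Z →+ Z).ker ≃ tor A ℓ :=
        { toFun := fun x => ⟨x.1.1, congrArg Subtype.val (AddMonoidHom.mem_ker.mp x.2)⟩
          invFun := fun x => ⟨⟨x.1, hZ x.2⟩, Subtype.ext x.2⟩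
          left_inv := fun _ => rfl
          right_inv := fun _ => rfl }
      exact Nat.card_congr e
    rw [← h3]
    exact Nat.eq_of_mul_eq_mul_left Nat.card_pos (h2.trans h1.symm)
  set lX := (nsmulAddMonoidHom ℓ : X →+ X).range with hlX
  set lY := (nsmulAddMonoidHom ℓ : Y →+ Y).range with hlY
  set f : X →+ Y := nmH A φ r ℓ with hf
  have hfsurj : Function.Surjective f := h.surjective hr0 hℓ.out.ne_zero
  have hle : lX ≤ lY.comap f := by
    rintro _ ⟨x, rfl⟩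
    rw [AddSubgroup.mem_comap]
    refine ⟨f x, ?_⟩
    show ℓ • f x = f (ℓ • x)
    rw [map_nsmul]
  have hidx1 : (lY.comap f).index = lY.index := AddSubgroup.index_comap_of_surjective _ hfsurj
  have hidx2 : lX.index = lY.index := by
    rw [hlX, hlY, hidx X (hfix.trans hXY) hfinX, hidx Y hfix hfinY]
  have hcardeq : Nat.card (lY.comap f) ≤ Nat.card lX := by
    have h1 := AddSubgroup.card_mul_index lX
    have h2 := AddSubgroup.card_mul_index (lY.comap f)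
    rw [hidx1, ← hidx2] at h2
    have h3 : 0 < lX.index := by
      rw [Nat.pos_iff_ne_zero]; exact AddSubgroup.index_ne_zero_of_finite
    exact (Nat.eq_of_mul_eq_mul_right h3 (h2.trans h1.symm)).le
  have heq : lX = lY.comap f := AddSubgroup.eq_of_le_of_card_ge hle hcardeq
  have hmem : (⟨a, hXY ha⟩ : X) ∈ lY.comap f := by
    rw [AddSubgroup.mem_comap]
    refine ⟨⟨a, ha⟩, Subtype.ext ?_⟩
    show ℓ • a = nm φ r ℓ a
    rw [nm_of_mem ha]
  rw [← heq] at hmem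
  obtain ⟨b, hb⟩ := hmem
  exact ⟨b.1, congrArg Subtype.val hb⟩

/-- the main result -/
theorem TorData.card_tor_pow (h : TorData A φ ℓ G) (k : ℕ) :
    Nat.card (tor A (ℓ ^ k)) = ℓ ^ (G * k) := by
  induction k with
  | zero =>
    have : tor A (ℓ ^ 0) = ⊥ := by
      ext a
      rw [mem_tor, pow_zero, one_smul, AddSubgroup.mem_bot]
    rw [this]
    simp
  | succ k ih =>
    let f : tor A (ℓ ^ (k + 1)) →+ tor A (ℓ ^ k) :=
      { toFun := fun x => ⟨ℓ • x.1, by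
          rw [mem_tor, ← mul_nsmul, ← pow_succ']
          exact x.2⟩
        map_zero' := Subtype.ext (smul_zero _)
        map_add' := fun x y => Subtype.ext (smul_add _ x.1 y.1) }
    have hf : Function.Surjective f := by
      rintro ⟨a, ha⟩
      obtain ⟨b, hb⟩ := h.divisible a
      refine ⟨⟨b, ?_⟩, Subtype.ext hb⟩
      rw [mem_tor] at ha ⊢
      rw [pow_succ', mul_nsmul, hb, ha]
    have h1 := card_range_mul_ker f
    rw [AddMonoidHom.range_eq_top.mpr hf, AddSubgroup.card_top, ih] at h1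
    have h2 : Nat.card f.ker = Nat.card (tor A ℓ) := by
      let e : f.ker ≃ tor A ℓ :=
        { toFun := fun x => ⟨x.1.1, congrArg Subtype.val (AddMonoidHom.mem_ker.mp x.2)⟩
          invFun := fun x => ⟨⟨x.1, by
            have := x.2
            rw [mem_tor] at this ⊢
            rw [pow_succ', mul_nsmul, this, smul_zero]⟩, Subtype.ext x.2⟩
          left_inv := fun _ => rfl
          right_inv := fun _ => rfl }
      exact Nat.card_congr e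
    rw [← h1, h2, h.card_tor, ← pow_add]
    congr 1

end main

end Fermat.Agent.Zeta
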