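import Fermat.Agent.Zeta.Norm
import Fermat.Agent.Zeta.Group

/-! Torsion of `Pic0` over the algebraic closure of a finite field. -/

set_option autoImplicit false

open AlgebraicCurve WithZero IsLocalRing Module

namespace Fermat.Agent.Zeta

open Fermat.Agent.RRC

variable {K F : Type*} [Field K] [Field F] [Algebra K F] [FF K F] {p : ℕ}
  {φ : SemilinearAut K F} {q : ℕ}

/-- genus zero: `Pic0` is trivial -/
theorem pic0_trivial (hg : genusFF K F = 0) (c : Pic0 K F) : c = 0 := by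
  obtain ⟨D, rfl⟩ := Pic0.mk_surjective c
  have hD : Divisor.degree (D : Divisor K F) = 0 := D.2
  have h1 := riemann_inequality (D : Divisor K F)
  rw [hD, hg] at h1
  have h2 : 0 < finrank K (riemannRochSpace (D : Divisor K F)) := by
    push_cast at h1
    omega
  have h3 : Nontrivial (riemannRochSpace (D : Divisor K F)) := Module.finrank_pos_iff.mp h2
  obtain ⟨f, hf⟩ := exists_ne (0 : riemannRochSpace (D : Divisor K F))
  have hf0 : (f : F) ≠ 0 := fun h0 => hf (Subtype.ext h0)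
  have h4 := (mem_L_iff hf0).mp f.2
  have h5 : (0 : Divisor K F) = div K (f : F) + D :=
    eq_of_le_of_degree_eq h4 (by rw [map_zero, map_add, degree_div, hD, add_zero])
  rw [← Pic0.mk_zero, mk_eq_mk_iff]
  have h6 : (D : Divisor K F) - ((0 : Divisor.degZero (K := K) (F := F)) : Divisor K F) =
      div K (f : F)⁻¹ := by
    rw [RRC.div_inv, ZeroMemClass.coe_zero, sub_zero]
    exact eq_neg_of_add_eq_zero_right h5.symm
  rw [h6]
  exact isPrincipal_div (inv_ne_zero hf0)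

theorem Frob.divisor_per (h : Frob p φ q) (D : Divisor K F) : ∃ r : ℕ, r ≠ 0 ∧ φ ^ r • D = D := by
  induction D using Finsupp.induction with
  | zero => exact ⟨1, one_ne_zero, smul_zero _⟩
  | single_add v n D _ _ ih =>
    obtain ⟨r, hr0, hr⟩ := ih
    obtain ⟨s, hs0, hs⟩ := h.place_per v
    refine ⟨r * s, Nat.mul_ne_zero hr0 hs0, ?_⟩
    rw [smul_add, SemilinearAut.smul_single, pow_smul_eq_of_dvd hs (dvd_mul_left s r),
      pow_smul_eq_of_dvd hr (dvd_mul_right r s)]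

theorem Frob.pic0_per (h : Frob p φ q) (c : Pic0 K F) : ∃ r : ℕ, r ≠ 0 ∧ φ ^ r • c = c := by
  obtain ⟨D, rfl⟩ := Pic0.mk_surjective c
  obtain ⟨r, hr0, hr⟩ := h.divisor_per (D : Divisor K F)
  refine ⟨r, hr0, ?_⟩
  rw [SemilinearAut.pic0_smul_mk]
  congr 1
  exact Subtype.ext hr

variable [IsAlgClosed K] [CharP K p]

theorem torData (h : Frob p φ q) {P₀ : Place K F} (hP₀ : φ • P₀ = P₀) (hg : 1 ≤ genusFF K F)
    (ℓ : ℕ) [hℓ : Fact ℓ.Prime] (hqℓ : ¬ ℓ ∣ q) :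
    TorData (Pic0 K F) φ ℓ (2 * genusFF K F) where
  fin r hr := by
    have hP₀' : φ ^ r • P₀ = P₀ := pow_smul_eq_of_dvd (by simpa using hP₀) (one_dvd r)
    exact finite_fixedPic (h.pow hr) hP₀'
  per c := h.pic0_per c
  surj r s hr hs c hc := by
    have hP₀' : φ ^ r • P₀ = P₀ := pow_smul_eq_of_dvd (by simpa using hP₀) (one_dvd r)
    obtain ⟨d, hd1, hd2⟩ := norm_surjective (h.pow hr) hP₀' hg hs hc
    refine ⟨d, ?_, ?_⟩
    · rw [mem_fixg, pow_mul]; exact hd1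
    · rw [← hd2, nm_apply, normPic_apply]
      simp only [pow_mul]
  growth := by
    obtain ⟨s, hs1, hs2, hs3, hs4, -, hs6⟩ := exists_roots h hP₀ hg
    have hcop : IsCoprime ((q : ℤ) ^ genusFF K F) ((ℓ ^ 2 : ℕ) : ℤ) := by
      have h1 : Nat.Coprime q ℓ :=
        ((Nat.Prime.coprime_iff_not_dvd hℓ.out).mpr hqℓ).symm
      have h2 : IsCoprime (q : ℤ) (ℓ : ℤ) := Nat.isCoprime_iff_coprime.mpr h1
      push_cast
      exact h2.pow
    obtain ⟨r₀, hr₀, hr₀'⟩ := exists_pow_sub_one_mem s hs2 ((q : ℤ) ^ genusFF K F)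
      (by rw [hs3]) (ℓ ^ 2) (pow_ne_zero _ hℓ.out.ne_zero) hcop
    refine ⟨r₀, hr₀, fun r hr hdvd => ?_⟩
    have hℓr : ℓ * r ≠ 0 := Nat.mul_ne_zero hℓ.out.ne_zero hr
    have hint : IsIntegral ℤ ((ℓ ^ 2 : ℕ) : ℂ) := by
      have : IsIntegral ℤ (algebraMap ℤ ℂ ((ℓ ^ 2 : ℕ) : ℤ)) := isIntegral_algebraMap
      simpa using this
    have key := exists_growth ℓ s hs2 (r := r) (by
      intro a ha
      obtain ⟨t, rfl⟩ := hdvd
      obtain ⟨b, hb1, hb2⟩ := hr₀' a ha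
      rw [pow_mul, hb2]
      exact exists_pow_one_add _ hint hb1 t)
      (card_fixedPic_pow h hP₀ hg hs6 hr) (card_fixedPic_pow h hP₀ hg hs6 hℓr) (by
        have hP₀' : φ ^ r • P₀ = P₀ := pow_smul_eq_of_dvd (by simpa using hP₀) (one_dvd r)
        have := finite_fixedPic (h.pow hr) hP₀'
        exact Nat.card_pos.ne')
    rw [hs1] at key
    obtain ⟨N, hN1, hN2⟩ := key
    refine ⟨N, ?_, hN2⟩
    rw [mul_comm r ℓ]
    exact hN1

/-- **torsion of `Pic0` over `𝔽̄_p`** -/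
theorem card_torsion (h : Frob p φ q) (ℓ : ℕ) [hℓ : Fact ℓ.Prime] (hqℓ : ¬ ℓ ∣ q) (k : ℕ) :
    Nat.card (Pic0.torsion K F (ℓ ^ k)) = ℓ ^ (2 * genusFF K F * k) := by
  rcases Nat.eq_zero_or_pos (genusFF K F) with hg | hg
  · rw [hg, mul_zero, zero_mul, pow_zero, Nat.card_eq_one_iff_unique]
    refine ⟨⟨fun x y => Subtype.ext ?_⟩, ⟨0⟩⟩
    rw [pic0_trivial hg x.1, pic0_trivial hg y.1]
  · obtain ⟨P₀⟩ := instNonemptyPlace (K := K) (F := F)
    obtain ⟨n, hn0, hn⟩ := h.place_per P₀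
    have hT := torData (h.pow hn0) hn hg ℓ
      (fun hdvd => hqℓ (hℓ.out.dvd_of_dvd_pow hdvd))
    rw [← hT.card_tor_pow k]
    have : (Pic0.torsion K F (ℓ ^ k)) = tor (Pic0 K F) (ℓ ^ k) := by
      ext c
      rw [Pic0.mem_torsion, mem_tor, natCast_zsmul]
    rw [this]

end Fermat.Agent.Zeta
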