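import Mathlib

/-! Lang's lemma for Frobenius-semilinear injective maps over an algebraically closed field. -/

set_option autoImplicit false

open Polynomial Module

namespace Fermat.Agent.Zeta

section

variable {k : Type*} [Field k] {V : Type*} [AddCommGroup V] [Module k V]

/-- the auxiliary polynomials -/
noncomputable def auxPoly (q : ℕ) (a : ℕ → k) : ℕ → k[X]
  | 0 => C (a 0) * X ^ q
  | (i + 1) => (auxPoly q a i) ^ q + C (a (i + 1)) * X ^ q

theorem auxPoly_spec {q : ℕ} (hq : 2 ≤ q) (a : ℕ → k) (n : ℕ) :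
    (∃ Y : k[X], auxPoly q a n = X ^ 2 * Y) ∧
    ((∃ i ≤ n, a i ≠ 0) → auxPoly q a n ≠ 0 ∧ q ≤ (auxPoly q a n).natDegree) := by
  have hX : (X : k[X]) ^ q = X ^ 2 * X ^ (q - 2) := by
    rw [← pow_add]; congr 1; omega
  induction n with
  | zero =>
    refine ⟨⟨C (a 0) * X ^ (q - 2), by rw [auxPoly, hX]; ring⟩, ?_⟩
    rintro ⟨i, hi, hai⟩
    obtain rfl : i = 0 := by omega
    have h1 : (C (a 0) * X ^ q : k[X]).natDegree = q := natDegree_C_mul_X_pow q _ hai
    refine ⟨?_, ?_⟩
    · rw [auxPoly]
      intro h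
      rw [h, natDegree_zero] at h1
      omega
    · rw [auxPoly, h1]
  | succ n ih =>
    obtain ⟨⟨Y, hY⟩, ih2⟩ := ih
    refine ⟨⟨(X ^ 2) ^ (q - 1) * Y ^ q + C (a (n + 1)) * X ^ (q - 2), ?_⟩, ?_⟩
    · rw [auxPoly, hY, hX, mul_pow]
      have : ((X : k[X]) ^ 2) ^ q = X ^ 2 * (X ^ 2) ^ (q - 1) := by
        rw [← pow_succ']; congr 1; omega
      rw [this]
      ring
    · rintro ⟨i, hi, hai⟩
      by_cases h : ∃ j ≤ n, a j ≠ 0
      · obtain ⟨h1, h2⟩ := ih2 h
        have h3 : ((auxPoly q a n) ^ q).natDegree = q * (auxPoly q a n).natDegree :=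
          natDegree_pow _ _
        have h4 : (C (a (n + 1)) * X ^ q : k[X]).natDegree ≤ q := natDegree_C_mul_X_pow_le _ _
        have h5 : q < q * (auxPoly q a n).natDegree := by nlinarith
        have h6 : (auxPoly q a (n + 1)).natDegree = q * (auxPoly q a n).natDegree := by
          rw [auxPoly, natDegree_add_eq_left_of_natDegree_lt (by rw [h3]; omega), h3]
        refine ⟨?_, by omega⟩
        intro h0
        rw [h0, natDegree_zero] at h6
        omega
      · push Not at h
        have hin : i = n + 1 := by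
          by_contra hne
          exact hai (h i (by omega))
        subst hin
        have hz : ∀ m ≤ n, auxPoly q a m = 0 := by
          intro m hm
          induction m with
          | zero => rw [auxPoly, h 0 (Nat.zero_le _)]; simp
          | succ m ihm =>
            rw [auxPoly, ihm (by omega), h (m + 1) hm]
            simp [show q ≠ 0 by omega]
        have h1 : auxPoly q a (n + 1) = C (a (n + 1)) * X ^ q := by
          rw [auxPoly, hz n le_rfl]
          simp [show q ≠ 0 by omega]
        have h2 : (C (a (n + 1)) * X ^ q : k[X]).natDegree = q := natDegree_C_mul_X_pow q _ hai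
        rw [h1]
        refine ⟨?_, h2.ge⟩
        intro h0
        rw [h0, natDegree_zero] at h2
        omega

variable [IsAlgClosed k]

theorem exists_root_auxPoly {q : ℕ} (hq : 2 ≤ q) (a : ℕ → k) (n : ℕ) (h : ∃ i ≤ n, a i ≠ 0) :
    ∃ t : k, t ≠ 0 ∧ (auxPoly q a n).eval t = t := by
  obtain ⟨⟨Y, hY⟩, h2⟩ := auxPoly_spec hq a n
  obtain ⟨h3, h4⟩ := h2 h
  have hdeg : (X * Y - 1 : k[X]).degree ≠ 0 := by
    have hY0 : Y ≠ 0 := by
      rintro rfl
      rw [mul_zero] at hY
      exact h3 hY
    have h5 : (X * Y : k[X]).degree = 1 + Y.degree := by rw [degree_mul, degree_X]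
    have h6 : (0 : WithBot ℕ) ≤ Y.degree := zero_le_degree_iff.mpr hY0
    have h7 : (1 : k[X]).degree < (X * Y : k[X]).degree := by
      rw [h5, degree_one]
      calc (0 : WithBot ℕ) < 1 := by norm_num
        _ = 1 + 0 := by simp
        _ ≤ 1 + Y.degree := by gcongr
    rw [degree_sub_eq_left_of_degree_lt h7, h5]
    intro h8
    have : (1 : WithBot ℕ) ≤ 0 := by
      calc (1 : WithBot ℕ) = 1 + 0 := by simp
        _ ≤ 1 + Y.degree := by gcongr
        _ = 0 := h8
    exact absurd this (by norm_num)
  obtain ⟨t, ht⟩ := IsAlgClosed.exists_root _ hdeg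
  have ht' : t * Y.eval t = 1 := by
    have := ht
    rw [IsRoot.def] at this
    simpa [sub_eq_zero] using this
  refine ⟨t, ?_, ?_⟩
  · rintro rfl
    simp at ht'
  · rw [hY]
    simp only [eval_mul, eval_pow, eval_X]
    calc t ^ 2 * Y.eval t = t * (t * Y.eval t) := by ring
      _ = t := by rw [ht', mul_one]

/-- existence of a nonzero fixed vector -/
theorem exists_fixed [FiniteDimensional k V] {q : ℕ} (hq : 2 ≤ q)
    (Φ : V →+ V) (hΦ : ∀ (c : k) (v : V), Φ (c • v) = c ^ q • Φ v)
    (hinj : ∀ v, Φ v = 0 → v = 0) {v : V} (hv : v ≠ 0) : ∃ w : V, w ≠ 0 ∧ Φ w = w := by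
  classical
  set e : ℕ → V := fun i => (Φ^[i]) v with he
  have hes : ∀ i, Φ (e i) = e (i + 1) := fun i => (Function.iterate_succ_apply' Φ i v).symm
  have hene : ∀ i, e i ≠ 0 := by
    intro i
    induction i with
    | zero => exact hv
    | succ i ih =>
      intro h
      rw [← hes] at h
      exact ih (hinj _ h)
  have hex : ∃ n, ¬ LinearIndependent k (fun i : Fin n => e i) := by
    refine ⟨finrank k V + 1, fun h => ?_⟩
    have := h.fintype_card_le_finrank
    rw [Fintype.card_fin] at this
    omega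
  set n := Nat.find hex with hn
  have hn1 : ¬ LinearIndependent k (fun i : Fin n => e i) := Nat.find_spec hex
  have hn0 : n ≠ 0 := by
    intro h
    rw [h] at hn1
    exact hn1 linearIndependent_empty_type
  obtain ⟨r, hr⟩ : ∃ r, n = r + 1 := ⟨n - 1, by omega⟩
  have hr1 : LinearIndependent k (fun i : Fin r => e i) := by
    by_contra hcon
    have := Nat.find_min' hex hcon
    omega
  rw [hr] at hn1
  have hspan : e r ∈ Submodule.span k (Set.range (fun i : Fin r => e i)) := by
    by_contra hcon
    apply hn1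
    have := hr1.finSnoc hcon
    convert this using 1
    ext i
    refine Fin.lastCases ?_ (fun j => ?_) i
    · simp
    · simp
  rw [Submodule.mem_span_range_iff_exists_fun] at hspan
  obtain ⟨a', ha'⟩ := hspan
  have hr0 : r ≠ 0 := by
    rintro rfl
    rw [Finset.univ_eq_empty, Finset.sum_empty] at ha'
    exact hene 0 ha'.symm
  obtain ⟨s, rfl⟩ : ∃ s, r = s + 1 := ⟨r - 1, by omega⟩
  set a : ℕ → k := fun i => if h : i < s + 1 then a' ⟨i, h⟩ else 0 with ha
  have hae : ∑ i ∈ Finset.range (s + 1), a i • e i = e (s + 1) := by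
    rw [Finset.sum_range, ← ha']
    refine Finset.sum_congr rfl fun i _ => ?_
    simp only [ha]
    rw [dif_pos i.isLt]
  have hane : ∃ i ≤ s, a i ≠ 0 := by
    by_contra hcon
    push Not at hcon
    rw [Finset.sum_eq_zero (fun i hi => by
      rw [hcon i (by rw [Finset.mem_range] at hi; omega), zero_smul])] at hae
    exact hene _ hae.symm
  obtain ⟨t, ht0, ht⟩ := exists_root_auxPoly hq a s hane
  set x : ℕ → k := fun i => (auxPoly q a i).eval t with hx
  have hxs : x s = t := ht
  have hx0 : x 0 = a 0 * t ^ q := by simp [hx, auxPoly]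
  have hxsucc : ∀ i, x (i + 1) = x i ^ q + a (i + 1) * t ^ q := by
    intro i
    simp [hx, auxPoly]
  refine ⟨∑ i ∈ Finset.range (s + 1), x i • e i, ?_, ?_⟩
  · intro h0
    rw [Finset.sum_range] at h0
    have := Fintype.linearIndependent_iff.mp hr1 (fun i => x i) h0 ⟨s, by omega⟩
    simp only at this
    rw [hxs] at this
    exact ht0 this
  · rw [map_sum]
    simp only [hΦ, hes]
    rw [Finset.sum_range_succ, hxs, ← hae, Finset.smul_sum]
    rw [Finset.sum_range_succ' (fun i => x i • e i) s]
    rw [Finset.sum_range_succ' (fun i => t ^ q • a i • e i) s, ← add_assoc,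
      ← Finset.sum_add_distrib]
    congr 1
    · refine Finset.sum_congr rfl fun i _ => ?_
      rw [hxsucc, smul_smul, ← add_smul]
      ring_nf
    · rw [hx0, smul_smul, mul_comm]

end

section span

variable {k : Type*} [Field k] [IsAlgClosed k] {V : Type*} [AddCommGroup V] [Module k V]

/-- the fixed vectors of an injective Frobenius-semilinear map span -/
theorem span_fixed_eq_top [FiniteDimensional k V] {q : ℕ} (hq : 2 ≤ q)
    (Φ : V →+ V) (hΦ : ∀ (c : k) (v : V), Φ (c • v) = c ^ q • Φ v)
    (hinj : ∀ v, Φ v = 0 → v = 0) : Submodule.span k {v : V | Φ v = v} = ⊤ := by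
  classical
  set W : Submodule k V := Submodule.span k {v : V | Φ v = v} with hW
  -- Φ maps W to W, and every element of W is Φ of an element of W
  have hWΦ : ∀ w ∈ W, Φ w ∈ W := by
    intro w hw
    induction hw using Submodule.span_induction with
    | mem x hx => rw [hx.out]; exact Submodule.subset_span hx
    | zero => rw [map_zero]; exact W.zero_mem
    | add x y _ _ hx hy => rw [map_add]; exact W.add_mem hx hy
    | smul c x _ hx => rw [hΦ]; exact W.smul_mem _ hx
  have hroot : ∀ c : k, ∃ d : k, d ^ q = c := fun c => IsAlgClosed.exists_pow_nat_eq c (by omega)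
  have hsub : ∀ w ∈ W, ∃ w' ∈ W, Φ w' = w := by
    intro w hw
    induction hw using Submodule.span_induction with
    | mem x hx => exact ⟨x, Submodule.subset_span hx, hx⟩
    | zero => exact ⟨0, W.zero_mem, map_zero _⟩
    | add x y _ _ hx hy =>
      obtain ⟨x', hx', rfl⟩ := hx
      obtain ⟨y', hy', rfl⟩ := hy
      exact ⟨x' + y', W.add_mem hx' hy', map_add _ _ _⟩
    | smul c x _ hx =>
      obtain ⟨x', hx', rfl⟩ := hx
      obtain ⟨d, rfl⟩ := hroot c
      exact ⟨d • x', W.smul_mem _ hx', hΦ _ _⟩
  -- w' - Φ w' = w is solvable in W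
  have hAS : ∀ c : k, ∃ d : k, d - d ^ q = c := by
    intro c
    have hdeg : (X - X ^ q - C c : k[X]).degree ≠ 0 := by
      have h1 : (X - X ^ q - C c : k[X]) = -(X ^ q + (-X + C c)) := by ring
      have h2 : ((-X + C c : k[X])).degree < (X ^ q : k[X]).degree := by
        rw [degree_X_pow]
        calc ((-X + C c : k[X])).degree ≤ max (-X : k[X]).degree (C c : k[X]).degree :=
              degree_add_le _ _
          _ ≤ 1 := by
              rw [degree_neg, degree_X]
              exact max_le le_rfl (degree_C_le.trans (by norm_num))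
          _ < (q : WithBot ℕ) := by exact_mod_cast (by omega : 1 < q)
      rw [h1, degree_neg, degree_add_eq_left_of_degree_lt h2, degree_X_pow]
      exact_mod_cast (by omega : q ≠ 0)
    obtain ⟨d, hd⟩ := IsAlgClosed.exists_root _ hdeg
    refine ⟨d, ?_⟩
    have := hd
    rw [IsRoot.def] at this
    simp only [eval_sub, eval_X, eval_pow, eval_C] at this
    exact sub_eq_zero.mp this
  have hsolve : ∀ w ∈ W, ∃ w' ∈ W, w' - Φ w' = w := by
    intro w hw
    induction hw using Submodule.span_induction with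
    | zero => exact ⟨0, W.zero_mem, by simp⟩
    | mem x hx =>
      obtain ⟨d, hd⟩ := hAS 1
      refine ⟨d • x, W.smul_mem _ (Submodule.subset_span hx), ?_⟩
      rw [hΦ, hx.out, ← sub_smul, hd, one_smul]
    | add x y _ _ hx hy =>
      obtain ⟨x', hx', h1⟩ := hx
      obtain ⟨y', hy', h2⟩ := hy
      refine ⟨x' + y', W.add_mem hx' hy', ?_⟩
      rw [map_add, ← h1, ← h2]
      abel
    | smul c x hx _ => 
      -- handle by writing `x` as a combination of fixed vectors
      have : ∀ c : k, ∀ x ∈ W, ∃ w' ∈ W, w' - Φ w' = c • x := by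
        intro c x hx
        induction hx using Submodule.span_induction generalizing c with
        | zero => exact ⟨0, W.zero_mem, by simp⟩
        | mem x hx =>
          obtain ⟨d, hd⟩ := hAS c
          refine ⟨d • x, W.smul_mem _ (Submodule.subset_span hx), ?_⟩
          rw [hΦ, hx.out, ← sub_smul, hd]
        | add x y _ _ hx hy =>
          obtain ⟨x', hx', h1⟩ := hx c
          obtain ⟨y', hy', h2⟩ := hy c
          refine ⟨x' + y', W.add_mem hx' hy', ?_⟩
          rw [map_add, smul_add, ← h1, ← h2]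
          abel
        | smul a x _ hx =>
          obtain ⟨x', hx', h1⟩ := hx (c * a)
          exact ⟨x', hx', by rw [h1, smul_smul]⟩
      exact this c x hx
  by_contra hne
  -- the quotient
  have hQ : Nontrivial (V ⧸ W) := Submodule.Quotient.nontrivial_iff.mpr hne
  have hle : W.toAddSubgroup ≤ W.toAddSubgroup.comap Φ := fun w hw => hWΦ w hw
  set Φ' : (V ⧸ W) →+ (V ⧸ W) := QuotientAddGroup.map W.toAddSubgroup W.toAddSubgroup Φ hle
    with hΦ'
  have hΦ'mk : ∀ v : V, Φ' (Submodule.Quotient.mk v) = Submodule.Quotient.mk (Φ v) := fun v => rfl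
  obtain ⟨w₀, hw₀⟩ := exists_ne (0 : V ⧸ W)
  obtain ⟨w, hw0, hw⟩ := exists_fixed (k := k) (V := V ⧸ W) hq Φ' (by
    intro c v
    obtain ⟨v, rfl⟩ := Submodule.Quotient.mk_surjective W v
    rw [← Submodule.Quotient.mk_smul, hΦ'mk, hΦ'mk, hΦ, Submodule.Quotient.mk_smul]) (by
    intro v hv
    obtain ⟨v, rfl⟩ := Submodule.Quotient.mk_surjective W v
    rw [hΦ'mk, Submodule.Quotient.mk_eq_zero] at hv
    obtain ⟨w', hw', h1⟩ := hsub _ hv
    have h2 : Φ (v - w') = 0 := by rw [map_sub, h1, sub_self]
    have h3 := hinj _ h2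
    rw [sub_eq_zero] at h3
    rw [Submodule.Quotient.mk_eq_zero, h3]
    exact hw') hw₀
  obtain ⟨v, rfl⟩ := Submodule.Quotient.mk_surjective W w
  rw [hΦ'mk, Submodule.Quotient.eq] at hw
  obtain ⟨w', hw', h1⟩ := hsolve _ hw
  -- Φ (v + w') = v + w'
  have h2 : Φ (v + w') = v + w' := by
    rw [map_add]
    have : w' = (Φ v - v) + Φ w' := by rw [← h1]; abel
    calc Φ v + Φ w' = v + ((Φ v - v) + Φ w') := by abel
      _ = v + w' := by rw [← this]
  have h3 : v + w' ∈ W := Submodule.subset_span h2
  have h4 : v ∈ W := by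
    have := W.sub_mem h3 hw'
    simpa using this
  exact hw0 ((Submodule.Quotient.mk_eq_zero W).mpr h4)

end span

section count

variable {k : Type*} [Field k] [IsAlgClosed k] {V : Type*} [AddCommGroup V] [Module k V]

theorem card_fixed_field (p : ℕ) [CharP k p] {q : ℕ} (hq : 2 ≤ q) (hpq : p ∣ q) :
    Nat.card {c : k // c ^ q = c} = q := by
  classical
  have hsep : (X ^ q - X : k[X]).Separable := galois_poly_separable p q hpq
  have hdeg : (X ^ q - X : k[X]).natDegree = q := by
    rw [natDegree_sub_eq_left_of_natDegree_lt]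
    · simp
    · simp; omega
  have hne : (X ^ q - X : k[X]) ≠ 0 := by
    intro h
    rw [h, natDegree_zero] at hdeg
    omega
  have h1 : (X ^ q - X : k[X]).rootSet k = {c : k | c ^ q = c} := by
    ext c
    rw [mem_rootSet]
    simp [hne, sub_eq_zero]
  have h2 : Fintype.card ((X ^ q - X : k[X]).rootSet k) = q := by
    rw [card_rootSet_eq_natDegree hsep (IsAlgClosed.splits _), hdeg]
  rw [Fintype.card_eq_nat_card, h1] at h2
  exact h2

/-- number of fixed vectors -/
theorem card_fixed [FiniteDimensional k V] (p : ℕ) [CharP k p] {q : ℕ} (hq : 2 ≤ q) (hpq : p ∣ q)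
    (Φ : V →+ V) (hΦ : ∀ (c : k) (v : V), Φ (c • v) = c ^ q • Φ v)
    (hinj : ∀ v, Φ v = 0 → v = 0) : Nat.card {v : V // Φ v = v} = q ^ finrank k V := by
  classical
  have hspan := span_fixed_eq_top hq Φ hΦ hinj
  obtain ⟨b, hb1, hb2, hb3⟩ := exists_linearIndependent k {v : V | Φ v = v}
  rw [hspan] at hb2
  set B : Basis b k V := Basis.mk hb3 (by rw [Subtype.range_coe, hb2]) with hB
  have hBfix : ∀ i : b, Φ (B i) = B i := by
    intro i
    rw [hB, Basis.mk_apply]
    exact hb1 i.2
  have : Fintype b := FiniteDimensional.fintypeBasisIndex B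
  have key : ∀ v : V, Φ v = v ↔ ∀ i, (B.repr v i) ^ q = B.repr v i := by
    intro v
    have h1 : Φ v = ∑ i, (B.repr v i) ^ q • B i := by
      conv_lhs => rw [← B.sum_repr v]
      rw [map_sum]
      refine Finset.sum_congr rfl fun i _ => ?_
      rw [hΦ, hBfix]
    constructor
    · intro h i
      have h2 := congrArg (fun w => B.repr w i) h1
      rw [h, B.repr_sum_self] at h2
      exact h2.symm
    · intro h
      rw [h1]
      conv_rhs => rw [← B.sum_repr v]
      exact Finset.sum_congr rfl fun i _ => by rw [h]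
  let e : {v : V // Φ v = v} ≃ (b → {c : k // c ^ q = c}) :=
    { toFun := fun v i => ⟨B.repr v.1 i, (key v.1).mp v.2 i⟩
      invFun := fun c => ⟨∑ i, (c i).1 • B i, (key _).mpr fun i => by
        rw [B.repr_sum_self]; exact (c i).2⟩
      left_inv := fun v => Subtype.ext (B.sum_repr v.1)
      right_inv := fun c => by
        funext i
        apply Subtype.ext
        simp only
        rw [B.repr_sum_self] }
  rw [Nat.card_congr e, Nat.card_fun, card_fixed_field p hq hpq, finrank_eq_card_basis B,
    Nat.card_eq_fintype_card]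

end count

end Fermat.Agent.Zeta
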