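import Fermat.Agent.RRC.Duality
import Fermat.Agent.Zeta.Lang
import Fermat.Prelude.Def_AlgebraicCurve_BaseChangeGalois

/-! Semilinear automorphisms acting on divisors and Riemann-Roch spaces; divisor classes. -/

set_option autoImplicit false

open AlgebraicCurve WithZero IsLocalRing Module

namespace Fermat.Agent.Zeta

open Fermat.Agent.RRC

variable {K F : Type*} [Field K] [Field F] [Algebra K F]

section semilinear

theorem smul_ne_zero_iff' (g : SemilinearAut K F) {f : F} : g • f ≠ 0 ↔ f ≠ 0 := by
  rw [SemilinearAut.smul_def]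
  exact map_ne_zero_iff _ (SemilinearAut.toRingAut g).injective

theorem ord_smul' (g : SemilinearAut K F) (v : Place K F) (f : F) :
    v.ord (g • f) = (g⁻¹ • v).ord f := by
  have := SemilinearAut.ord_smul g (g⁻¹ • v) f
  rwa [smul_inv_smul] at this

theorem div_smul [HasPrincipalDivisors K F] (g : SemilinearAut K F) {f : F} (hf : f ≠ 0) :
    div K (g • f) = g • div K f := by
  ext v
  rw [div_apply ((smul_ne_zero_iff' g).mpr hf), SemilinearAut.divisor_smul_apply, div_apply hf,
    ord_smul']

theorem smul_mem_L (g : SemilinearAut K F) {D : Divisor K F} {f : F}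
    (hf : f ∈ riemannRochSpace D) : g • f ∈ riemannRochSpace (g • D) := by
  rw [mem_riemannRochSpace_iff] at hf ⊢
  intro v
  rcases hf (g⁻¹ • v) with h | h
  · left; rw [h, smul_zero]
  · right; rw [SemilinearAut.divisor_smul_apply, ord_smul']; exact h

theorem smul_smul_F (g : SemilinearAut K F) (c : K) (f : F) :
    g • (c • f) = (SemilinearAut.baseAut g c) • (g • f) := by
  rw [Algebra.smul_def, Algebra.smul_def, smul_mul', SemilinearAut.smul_algebraMap]

theorem le_smul_iff (g : SemilinearAut K F) {D E : Divisor K F} : g • D ≤ g • E ↔ D ≤ E := by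
  constructor
  · intro h v
    have := h (g • v)
    rwa [SemilinearAut.divisor_smul_apply_smul, SemilinearAut.divisor_smul_apply_smul] at this
  · intro h v
    rw [SemilinearAut.divisor_smul_apply, SemilinearAut.divisor_smul_apply]
    exact h _

/-- `g` acts semilinearly `L(D) ≃ L(g D)` -/
noncomputable def equivL (g : SemilinearAut K F) (D : Divisor K F) :
    riemannRochSpace D ≃+ riemannRochSpace (g • D) where
  toFun f := ⟨g • (f : F), smul_mem_L g f.2⟩
  invFun f := ⟨g⁻¹ • (f : F), by
    have := smul_mem_L g⁻¹ f.2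
    rwa [inv_smul_smul] at this⟩
  left_inv f := by ext; simp
  right_inv f := by ext; simp
  map_add' f f' := by ext; simp [smul_add]

theorem finrank_L_smul (g : SemilinearAut K F) (D : Divisor K F) :
    finrank K (riemannRochSpace (g • D)) = finrank K (riemannRochSpace D) := by
  symm
  unfold finrank
  congr 1
  exact rank_eq_of_equiv_equiv (SemilinearAut.baseAut g) (equivL g D)
    (SemilinearAut.baseAut g).bijective (fun c f => Subtype.ext (smul_smul_F g c (f : F)))

end semilinear

section cls

variable [RatPlaces K F] (P₀ : Place K F)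

/-- the class of `D - deg(D) P₀` -/
noncomputable def cls : Divisor K F →+ Pic0 K F where
  toFun D := Pic0.mk ⟨D - Finsupp.single P₀ (Divisor.degree D), by
    rw [Divisor.mem_degZero, map_sub, degree_single', sub_self]⟩
  map_zero' := by
    rw [← Pic0.mk_zero]
    congr 1
    ext
    simp
  map_add' D E := by
    rw [← Pic0.mk_add]
    congr 1
    apply Subtype.ext
    rw [AddSubgroup.coe_add]
    simp only [map_add, Finsupp.single_add]
    abel

theorem cls_def (D : Divisor K F) : cls P₀ D = Pic0.mk ⟨D - Finsupp.single P₀ (Divisor.degree D), by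
    rw [Divisor.mem_degZero, map_sub, degree_single', sub_self]⟩ := rfl

omit [RatPlaces K F] in
theorem mk_eq_mk_iff {D E : Divisor.degZero (K := K) (F := F)} :
    Pic0.mk D = Pic0.mk E ↔ Divisor.IsPrincipal ((D : Divisor K F) - (E : Divisor K F)) := by
  rw [← sub_eq_zero]
  show (QuotientAddGroup.mk D : Pic0 K F) - QuotientAddGroup.mk E = 0 ↔ _
  rw [← QuotientAddGroup.mk_sub, QuotientAddGroup.eq_zero_iff, AddSubgroup.mem_addSubgroupOf]
  rfl

theorem cls_eq_iff {D E : Divisor K F} (h : Divisor.degree D = Divisor.degree E) :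
    cls P₀ D = cls P₀ E ↔ Divisor.IsPrincipal (D - E) := by
  rw [cls_def, cls_def, mk_eq_mk_iff]
  simp only [h]
  rw [sub_sub_sub_cancel_right]

theorem cls_of_degZero (D : Divisor.degZero (K := K) (F := F)) : cls P₀ D = Pic0.mk D := by
  rw [cls_def]
  congr 1
  apply Subtype.ext
  have : Divisor.degree (D : Divisor K F) = 0 := D.2
  simp [this]

@[simp] theorem cls_single_self (n : ℤ) : cls P₀ (Finsupp.single P₀ n) = 0 := by
  rw [cls_def, ← Pic0.mk_zero]
  congr 1
  apply Subtype.ext
  simp only [degree_single', sub_self]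
  rfl

theorem exists_cls (c : Pic0 K F) (n : ℤ) : ∃ D : Divisor K F, Divisor.degree D = n ∧
    cls P₀ D = c := by
  obtain ⟨D, rfl⟩ := Pic0.mk_surjective c
  refine ⟨D + Finsupp.single P₀ n, ?_, ?_⟩
  · have : Divisor.degree (D : Divisor K F) = 0 := D.2
    rw [map_add, this, degree_single', zero_add]
  · rw [map_add, cls_of_degZero, cls_single_self, add_zero]

theorem cls_smul {g : SemilinearAut K F} (hg : g • P₀ = P₀) (D : Divisor K F) :
    g • cls P₀ D = cls P₀ (g • D) := by
  rw [cls_def, SemilinearAut.pic0_smul_mk, cls_def]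
  congr 1
  apply Subtype.ext
  rw [SemilinearAut.coe_degZeroSMulHom]
  simp only [smul_sub, SemilinearAut.smul_single, hg, SemilinearAut.degree_smul]

theorem cls_div [HasPrincipalDivisors K F] {f : F} (hf : f ≠ 0) : cls P₀ (div K f) = 0 := by
  have h : Divisor.degree (div K f) = Divisor.degree (0 : Divisor K F) := by
    rw [degree_div, map_zero]
  rw [← map_zero (cls P₀), cls_eq_iff P₀ h, sub_zero]
  exact isPrincipal_div hf

end cls

end Fermat.Agent.Zeta
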