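import Fermat.Agent.Zeta.Frob

/-! Counting invariant effective divisors in an invariant class. -/

set_option autoImplicit false

open AlgebraicCurve WithZero IsLocalRing Module

namespace Fermat.Agent.Zeta

open Fermat.Agent.RRC

theorem card_ne_zero_add_one {α : Type*} [Zero α] {P : α → Prop} (h0 : P 0)
    (hfin : Finite {x : α // P x}) :
    Nat.card {x : α // P x ∧ x ≠ 0} + 1 = Nat.card {x : α // P x} := by
  have h1 : ({x : α | P x} \ {0}).ncard + 1 = {x : α | P x}.ncard :=
    Set.ncard_sdiff_singleton_add_one (s := {x : α | P x}) h0 hfin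
  exact h1

variable {K F : Type*} [Field K] [Field F] [Algebra K F] [FF K F]

theorem dg_eq_degree (D : Divisor K F) : dg D = Divisor.degree D := by
  rw [dg_eq_sum, degree_eq_sum]

omit [FF K F] in
theorem inv_iff {φ : SemilinearAut K F} {D : Divisor K F} :
    Inv (MulAction.toPerm φ : Equiv.Perm (Place K F)) D ↔ φ • D = D := by
  constructor
  · intro h
    ext v
    rw [SemilinearAut.divisor_smul_apply]
    have := h (φ⁻¹ • v)
    rw [MulAction.toPerm_apply, smul_inv_smul] at this
    exact this.symm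
  · intro h v
    rw [MulAction.toPerm_apply]
    conv_lhs => rw [← h]
    rw [SemilinearAut.divisor_smul_apply_smul]

theorem mem_effInv {φ : SemilinearAut K F} {D : Divisor K F} {n : ℕ} :
    D ∈ effInv (MulAction.toPerm φ : Equiv.Perm (Place K F)) n ↔
      0 ≤ D ∧ φ • D = D ∧ Divisor.degree D = n := by
  rw [← inv_iff, ← dg_eq_degree]
  rfl

theorem exists_const_of_div_eq {f g : F} (hf : f ≠ 0) (hg : g ≠ 0) (h : div K f = div K g) :
    ∃ a : K, a ≠ 0 ∧ f = a • g := by
  have h1 : f * g⁻¹ ∈ riemannRochSpace (0 : Divisor K F) := by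
    rw [mem_L_iff (mul_ne_zero hf (inv_ne_zero hg)), RRC.div_mul hf (inv_ne_zero hg), RRC.div_inv, h]
    simp
  obtain ⟨a, ha⟩ := mem_L_zero_iff.mp h1
  have h2 : f = a • g := by
    rw [Algebra.smul_def, ← ha, mul_assoc, inv_mul_cancel₀ hg, mul_one]
  refine ⟨a, ?_, h2⟩
  rintro rfl
  rw [zero_smul] at h2
  exact hf h2

theorem div_smul_const {a : K} (ha : a ≠ 0) {f : F} (hf : f ≠ 0) : div K (a • f) = div K f := by
  rw [Algebra.smul_def, RRC.div_mul (by simpa using ha) hf, div_algebraMap, zero_add]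

theorem card_class [IsAlgClosed K] {p : ℕ} [CharP K p] {φ : SemilinearAut K F} {q : ℕ}
    (h : Frob p φ q) {P₀ : Place K F} (hP₀ : φ • P₀ = P₀) {c : Pic0 K F} (hc : φ • c = c) {n : ℕ}
    {D : Divisor K F} (hD : Divisor.degree D = n) (hDc : cls P₀ D = c) :
    Nat.card {E : Divisor K F // E ∈ effInv (MulAction.toPerm φ : Equiv.Perm (Place K F)) n ∧
      cls P₀ E = c} * (q - 1) + 1 = q ^ finrank K (riemannRochSpace D) := by
  classical
  have hprin : Divisor.IsPrincipal (φ • D - D) := by
    rw [← cls_eq_iff P₀ (by rw [SemilinearAut.degree_smul]), ← cls_smul P₀ hP₀, hDc, hc]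
  obtain ⟨u, hu0, hu⟩ := isPrincipal_iff.mp hprin
  have hφD : φ • D = D + div K u := by rw [← hu]; abel
  let Φ : riemannRochSpace D →+ riemannRochSpace D :=
    { toFun := fun f => ⟨(φ • (f : F)) * u, mul_mem_L (by
        rw [← hφD]; exact smul_mem_L φ f.2) hu0⟩
      map_zero' := by ext; simp
      map_add' := fun f f' => by ext; simp [smul_add, add_mul] }
  have hΦcoe : ∀ f, ((Φ f : riemannRochSpace D) : F) = (φ • (f : F)) * u := fun f => rfl
  have hΦ : ∀ (a : K) (f : riemannRochSpace D), Φ (a • f) = a ^ q • Φ f := by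
    intro a f
    apply Subtype.ext
    rw [hΦcoe, Submodule.coe_smul, Submodule.coe_smul, hΦcoe, smul_smul_F, h.base,
      smul_mul_assoc]
  have hinj : ∀ f, Φ f = 0 → f = 0 := by
    intro f hf
    have h1 := congrArg Subtype.val hf
    rw [hΦcoe] at h1
    by_contra hcon
    have h2 : (f : F) ≠ 0 := fun h0 => hcon (Subtype.ext h0)
    exact mul_ne_zero ((smul_ne_zero_iff' φ).mpr h2) hu0 h1
  have hcard := card_fixed p h.two_le h.dvd Φ hΦ hinj
  have hcardK := card_fixed_field (k := K) p h.two_le h.dvd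
  have hq := h.two_le
  have hfin1 : Finite {f : riemannRochSpace D // Φ f = f} := by
    apply Nat.finite_of_card_ne_zero
    rw [hcard]
    positivity
  have hfin2 : Finite {a : K // a ^ q = a} := by
    apply Nat.finite_of_card_ne_zero
    rw [hcardK]; omega
  have h1 := card_ne_zero_add_one (P := fun f : riemannRochSpace D => Φ f = f) (map_zero Φ) hfin1
  have h2 := card_ne_zero_add_one (P := fun a : K => a ^ q = a) (by simp; omega) hfin2
  -- divisor of `Φ f`
  have hdivΦ : ∀ f : riemannRochSpace D, f ≠ 0 →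
      div K ((Φ f : riemannRochSpace D) : F) = φ • (D + div K (f : F)) - D := by
    intro f hf
    have hf0 : (f : F) ≠ 0 := fun h0 => hf (Subtype.ext h0)
    rw [hΦcoe, RRC.div_mul ((smul_ne_zero_iff' φ).mpr hf0) hu0, div_smul φ hf0, smul_add, hφD]
    abel
  have hmem : ∀ f : riemannRochSpace D, f ≠ 0 → Φ f = f →
      D + div K (f : F) ∈ effInv (MulAction.toPerm φ : Equiv.Perm (Place K F)) n ∧
      cls P₀ (D + div K (f : F)) = c := by
    intro f hf hΦf
    have hf0 : (f : F) ≠ 0 := fun h0 => hf (Subtype.ext h0)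
    refine ⟨mem_effInv.mpr ⟨?_, ?_, ?_⟩, ?_⟩
    · rw [add_comm]; exact (mem_L_iff hf0).mp f.2
    · have := hdivΦ f hf
      rw [hΦf] at this
      have h6 : φ • (D + div K (f : F)) = div K (f : F) + D := by
        conv_rhs => rw [this, sub_add_cancel]
      rw [h6, add_comm]
    · rw [map_add, degree_div, hD, add_zero]
    · rw [map_add, cls_div P₀ hf0, hDc, add_zero]
  have hex : ∀ E : {E : Divisor K F // E ∈ effInv (MulAction.toPerm φ : Equiv.Perm (Place K F)) n ∧
      cls P₀ E = c}, ∃ f : riemannRochSpace D, f ≠ 0 ∧ Φ f = f ∧ D + div K (f : F) = E.1 := by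
    rintro ⟨E, hE, hEc⟩
    obtain ⟨hE0, hEφ, hEdeg⟩ := mem_effInv.mp hE
    have hpr : Divisor.IsPrincipal (E - D) := by
      rw [← cls_eq_iff P₀ (by rw [hEdeg, hD]), hEc, hDc]
    obtain ⟨f, hf0, hf⟩ := isPrincipal_iff.mp hpr
    have hfL : f ∈ riemannRochSpace D := by
      rw [mem_L_iff hf0, ← hf]
      simpa using hE0
    set f' : riemannRochSpace D := ⟨f, hfL⟩ with hf'
    have hf'0 : f' ≠ 0 := fun h0 => hf0 (congrArg Subtype.val h0)
    have hDf : D + div K f = E := by rw [← hf]; abel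
    have hΦf0 : ((Φ f' : riemannRochSpace D) : F) ≠ 0 := by
      intro h0
      exact hf'0 (hinj _ (Subtype.ext h0))
    have h3 : div K ((Φ f' : riemannRochSpace D) : F) = div K f := by
      rw [hdivΦ f' hf'0]
      show φ • (D + div K f) - D = div K f
      rw [hDf, hEφ, ← hDf]; abel
    obtain ⟨a, ha0, ha⟩ := exists_const_of_div_eq hΦf0 hf0 h3
    -- choose `b` with `b ^ (q - 1) = a⁻¹`
    obtain ⟨b, hb⟩ := IsAlgClosed.exists_pow_nat_eq a⁻¹ (n := q - 1) (by omega)
    have hb0 : b ≠ 0 := by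
      rintro rfl
      rw [zero_pow (by omega)] at hb
      exact inv_ne_zero ha0 hb.symm
    refine ⟨b • f', smul_ne_zero hb0 hf'0, ?_, ?_⟩
    · rw [hΦ]
      apply Subtype.ext
      rw [Submodule.coe_smul, Submodule.coe_smul, ha, smul_smul]
      congr 1
      obtain ⟨q', rfl⟩ : ∃ q', q = q' + 1 := ⟨q - 1, by omega⟩
      rw [Nat.add_sub_cancel] at hb
      rw [pow_succ, hb, mul_comm a⁻¹ b, mul_assoc, inv_mul_cancel₀ ha0, mul_one]
    · rw [Submodule.coe_smul, div_smul_const hb0 hf0, hDf]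
  choose fE hfE0 hfEΦ hfEdiv using hex
  have hbij : Function.Bijective (fun x : {E : Divisor K F // E ∈ effInv (MulAction.toPerm φ :
      Equiv.Perm (Place K F)) n ∧ cls P₀ E = c} × {a : K // a ^ q = a ∧ a ≠ 0} =>
      (⟨x.2.1 • fE x.1, by rw [hΦ, x.2.2.1, hfEΦ], smul_ne_zero x.2.2.2 (hfE0 _)⟩ :
        {f : riemannRochSpace D // Φ f = f ∧ f ≠ 0})) := by
    constructor
    · rintro ⟨E, a⟩ ⟨E', a'⟩ hEE
      have h3 : a.1 • fE E = a'.1 • fE E' := congrArg Subtype.val hEE
      have h4 : E = E' := by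
        apply Subtype.ext
        rw [← hfEdiv E, ← hfEdiv E']
        congr 1
        have hE0 : (fE E : F) ≠ 0 := fun h0 => hfE0 E (Subtype.ext h0)
        have hE0' : (fE E' : F) ≠ 0 := fun h0 => hfE0 E' (Subtype.ext h0)
        rw [← div_smul_const a.2.2 hE0, ← div_smul_const a'.2.2 hE0', ← Submodule.coe_smul,
          ← Submodule.coe_smul, h3]
      subst h4
      have h5 : a = a' := by
        apply Subtype.ext
        exact smul_left_injective K (hfE0 E) h3
      rw [h5]
    · rintro ⟨f, hf1, hf2⟩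
      have hf0 : (f : F) ≠ 0 := fun h0 => hf2 (Subtype.ext h0)
      set E : {E : Divisor K F // E ∈ effInv (MulAction.toPerm φ : Equiv.Perm (Place K F)) n ∧
        cls P₀ E = c} := ⟨D + div K (f : F), hmem f hf2 hf1⟩ with hE
      have h3 : div K (f : F) = div K (fE E : F) := by
        have := hfEdiv E
        rw [hE] at this
        exact (add_left_cancel this).symm
      have hE0 : (fE E : F) ≠ 0 := fun h0 => hfE0 E (Subtype.ext h0)
      obtain ⟨a, ha0, ha⟩ := exists_const_of_div_eq hf0 hE0 h3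
      have ha' : f = a • fE E := Subtype.ext ha
      have haq : a ^ q = a := by
        have h4 : a ^ q • fE E = a • fE E := by
          conv_lhs => rw [← hfEΦ E]
          rw [← hΦ, ← ha', hf1]
        exact smul_left_injective K (hfE0 E) h4
      exact ⟨⟨E, ⟨a, haq, ha0⟩⟩, Subtype.ext ha'.symm⟩
  have h3 := Nat.card_congr (Equiv.ofBijective _ hbij)
  rw [Nat.card_prod] at h3
  rw [← hcard, ← h1, ← h3]
  congr 2
  omega

end Fermat.Agent.Zeta
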