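import Mathlib

/-! Logarithmic derivatives of power series and power sums. -/

set_option autoImplicit false

open Polynomial

namespace Fermat.Agent.Zeta

variable {R : Type*} [Field R]

/-- `N` is the (Euler) logarithmic derivative of `A` -/
def IsLD (A N : PowerSeries R) : Prop := PowerSeries.X * PowerSeries.derivative R A = A * N

theorem isLD_iff {A N : PowerSeries R} :
    IsLD A N ↔ ∀ n : ℕ, (n : R) * PowerSeries.coeff n A = PowerSeries.coeff n (A * N) := by
  unfold IsLD
  rw [PowerSeries.ext_iff]
  refine forall_congr' fun n => ?_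
  cases n with
  | zero => simp
  | succ n =>
    rw [PowerSeries.coeff_succ_X_mul, PowerSeries.coeff_derivative]
    push_cast
    rw [mul_comm]

theorem IsLD.mul {A B N M : PowerSeries R} (h1 : IsLD A N) (h2 : IsLD B M) :
    IsLD (A * B) (N + M) := by
  unfold IsLD at *
  have : PowerSeries.derivative R (A * B) =
      A * PowerSeries.derivative R B + B * PowerSeries.derivative R A := by
    rw [Derivation.leibniz]; simp [smul_eq_mul]
  rw [this]
  calc PowerSeries.X * (A * PowerSeries.derivative R B + B * PowerSeries.derivative R A)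
      = A * (PowerSeries.X * PowerSeries.derivative R B)
        + B * (PowerSeries.X * PowerSeries.derivative R A) := by ring
    _ = A * B * (N + M) := by rw [h1, h2]; ring

theorem isLD_one : IsLD (1 : PowerSeries R) 0 := by
  unfold IsLD; simp

theorem IsLD.unique_left [CharZero R] {A B N : PowerSeries R} (h1 : IsLD A N) (h2 : IsLD B N)
    (hN : PowerSeries.coeff 0 N = 0) (h0 : PowerSeries.coeff 0 A = PowerSeries.coeff 0 B) :
    A = B := by
  rw [isLD_iff] at h1 h2
  ext n
  induction n using Nat.strong_induction_on with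
  | _ n ih =>
    rcases Nat.eq_zero_or_pos n with rfl | hn
    · exact h0
    · have hn' : (n : R) ≠ 0 := by exact_mod_cast hn.ne'
      apply mul_left_cancel₀ hn'
      rw [h1, h2, PowerSeries.coeff_mul, PowerSeries.coeff_mul]
      refine Finset.sum_congr rfl fun x hx => ?_
      rw [Finset.HasAntidiagonal.mem_antidiagonal] at hx
      rcases Nat.eq_zero_or_pos x.2 with h | h
      · rw [h, hN, mul_zero, mul_zero]
      · rw [ih x.1 (by omega)]

theorem IsLD.unique_right {A N M : PowerSeries R} (h1 : IsLD A N) (h2 : IsLD A M) (hA : A ≠ 0) :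
    N = M := by
  unfold IsLD at *
  exact mul_left_cancel₀ hA (h1.symm.trans h2)

theorem isLD_linear (a : R) : IsLD (1 - PowerSeries.C a * PowerSeries.X)
    (PowerSeries.mk fun n => if n = 0 then 0 else -a ^ n) := by
  rw [isLD_iff]
  intro n
  rw [sub_mul, one_mul, map_sub, map_sub, mul_assoc]
  rcases n with _ | _ | n
  · simp
  · rw [PowerSeries.coeff_C_mul, PowerSeries.coeff_C_mul, PowerSeries.coeff_mk,
      PowerSeries.coeff_succ_X_mul, PowerSeries.coeff_mk]
    simp [PowerSeries.coeff_one, PowerSeries.coeff_X]
  · rw [PowerSeries.coeff_C_mul, PowerSeries.coeff_C_mul, PowerSeries.coeff_mk,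
      PowerSeries.coeff_succ_X_mul, PowerSeries.coeff_mk]
    simp [PowerSeries.coeff_one, PowerSeries.coeff_X]
    ring

/-- the generating function of power sums -/
noncomputable def psum (s : Multiset R) : PowerSeries R :=
  PowerSeries.mk fun n => if n = 0 then 0 else (s.map (· ^ n)).sum

/-- the product of the `1 - a X` -/
noncomputable def prd (s : Multiset R) : R[X] := (s.map fun a => 1 - C a * X).prod

theorem coeff_psum (s : Multiset R) {n : ℕ} (hn : n ≠ 0) :
    PowerSeries.coeff n (psum s) = (s.map (· ^ n)).sum := by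
  rw [psum, PowerSeries.coeff_mk, if_neg hn]

@[simp] theorem coeff_zero_psum (s : Multiset R) : PowerSeries.coeff 0 (psum s) = 0 := by
  rw [psum, PowerSeries.coeff_mk, if_pos rfl]

theorem coeff_zero_prd (s : Multiset R) : (prd s).coeff 0 = 1 := by
  unfold prd
  induction s using Multiset.induction_on with
  | empty => simp
  | cons a s ih => rw [Multiset.map_cons, Multiset.prod_cons, mul_coeff_zero, ih]; simp

theorem isLD_prd (s : Multiset R) : IsLD ((prd s : R[X]) : PowerSeries R) (-psum s) := by
  induction s using Multiset.induction_on with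
  | empty =>
    have h1 : ((prd (0 : Multiset R) : R[X]) : PowerSeries R) = 1 := by simp [prd]
    have h2 : psum (0 : Multiset R) = 0 := by
      ext n
      simp [psum]
    rw [h1, h2, neg_zero]
    exact isLD_one
  | cons a s ih =>
    have h1 : ((prd (a ::ₘ s) : R[X]) : PowerSeries R) =
        (1 - PowerSeries.C a * PowerSeries.X) * ((prd s : R[X]) : PowerSeries R) := by
      simp [prd]
    have h2 : -psum (a ::ₘ s) =
        (PowerSeries.mk fun n => if n = 0 then 0 else -a ^ n) + -psum s := by
      ext n
      simp only [psum, map_neg, PowerSeries.coeff_mk, map_add]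
      split_ifs with h
      · simp
      · simp [add_comm]
    rw [h1, h2]
    exact (isLD_linear a).mul ih

/-- a polynomial with constant term `1` is a product of factors `1 - a X` -/
theorem exists_prd [IsAlgClosed R] (n : ℕ) (A : R[X]) (hn : A.natDegree = n) (h0 : A.coeff 0 = 1) :
    ∃ s : Multiset R, A = prd s ∧ s.card = n ∧ (∀ a ∈ s, a ≠ 0) ∧
      A.leadingCoeff = (s.map fun a => -a).prod := by
  induction n generalizing A with
  | zero =>
    refine ⟨0, ?_, rfl, by simp, ?_⟩
    · rw [eq_C_of_natDegree_eq_zero hn, h0]; simp [prd]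
    · rw [leadingCoeff, hn, h0]; simp
  | succ n ih =>
    have hA0 : A ≠ 0 := by rintro rfl; simp at h0
    have hdeg : A.degree ≠ 0 := by
      rw [degree_eq_natDegree hA0, hn]
      exact_mod_cast Nat.succ_ne_zero n
    obtain ⟨r, hr⟩ := IsAlgClosed.exists_root A hdeg
    have hr0 : r ≠ 0 := by
      rintro rfl
      rw [IsRoot.def, ← coeff_zero_eq_eval_zero, h0] at hr
      exact one_ne_zero hr
    obtain ⟨B, hB⟩ := dvd_iff_isRoot.mpr hr
    have hB0 : B ≠ 0 := by rintro rfl; rw [mul_zero] at hB; exact hA0 hB
    have hBdeg : B.natDegree = n := by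
      have := natDegree_mul (X_sub_C_ne_zero r) hB0
      rw [← hB, hn, natDegree_X_sub_C] at this
      omega
    have hAB : A = (1 - C r⁻¹ * X) * (-C r * B) := by
      rw [hB, ← mul_assoc]
      congr 1
      have : (C r⁻¹ : R[X]) * C r = 1 := by rw [← C_mul, inv_mul_cancel₀ hr0, C_1]
      calc (X - C r : R[X]) = (C r⁻¹ * C r) * X - C r := by rw [this, one_mul]
        _ = (1 - C r⁻¹ * X) * -C r := by ring
    have hnd : (-C r * B).natDegree = n := by
      rw [← C_neg, natDegree_C_mul (neg_ne_zero.mpr hr0), hBdeg]
    have hc0 : (-C r * B).coeff 0 = 1 := by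
      have := congrArg (fun P => coeff P 0) hAB
      simp only [mul_coeff_zero] at this
      rw [h0] at this
      simp only [coeff_sub, coeff_one_zero, mul_coeff_zero, coeff_X_zero, mul_zero, sub_zero,
        one_mul] at this
      rw [mul_coeff_zero]
      exact this.symm
    obtain ⟨s, hs1, hs2, hs3, hs4⟩ := ih _ hnd hc0
    refine ⟨r⁻¹ ::ₘ s, ?_, ?_, ?_, ?_⟩
    · rw [hAB, hs1]; simp [prd]
    · rw [Multiset.card_cons, hs2]
    · intro a ha
      rw [Multiset.mem_cons] at ha
      rcases ha with rfl | ha
      · exact inv_ne_zero hr0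
      · exact hs3 a ha
    · rw [hAB, leadingCoeff_mul, hs4, Multiset.map_cons, Multiset.prod_cons]
      congr 1
      have h1 : (1 - C r⁻¹ * X : R[X]) = C (-r⁻¹) * X + C 1 := by
        rw [C_neg, C_1]; ring
      rw [h1, leadingCoeff_linear (neg_ne_zero.mpr (inv_ne_zero hr0))]

/-- "base change" : if `prd s` has log derivative `-psum s`, then the series with log-derivative
given by the `m`-th power sums is `prd (s.map (· ^ m))` -/
theorem coeff_psum_map_pow (s : Multiset R) {m n : ℕ} (hm : m ≠ 0) (hn : n ≠ 0) :
    PowerSeries.coeff n (psum (s.map (· ^ m))) = PowerSeries.coeff (m * n) (psum s) := by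
  rw [coeff_psum _ hn, coeff_psum _ (Nat.mul_ne_zero hm hn), Multiset.map_map]
  congr 1
  refine Multiset.map_congr rfl fun a _ => ?_
  simp [pow_mul]

theorem eval_one_prd (s : Multiset R) : (prd s).eval 1 = (s.map fun a => 1 - a).prod := by
  unfold prd
  rw [← coe_evalRingHom, map_multiset_prod, Multiset.map_map]
  congr 1
  refine Multiset.map_congr rfl fun a _ => ?_
  simp

end Fermat.Agent.Zeta
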