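import Fermat.Agent.Zeta.ZetaFn

/-! Reciprocal roots; class numbers of extensions; surjectivity of the norm. -/

set_option autoImplicit false

open AlgebraicCurve WithZero IsLocalRing Module

namespace Fermat.Agent.Zeta

open Fermat.Agent.RRC

variable {K F : Type*} [Field K] [Field F] [Algebra K F] [FF K F] {p : ℕ}
  {φ : SemilinearAut K F} {q : ℕ}

theorem isLD_mk {R : Type*} [Field R] {a N : ℕ → R} (hN : N 0 = 0)
    (h : ∀ n : ℕ, (n : R) * a n = ∑ j ∈ Finset.Icc 1 n, N j * a (n - j)) :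
    IsLD (PowerSeries.mk a) (PowerSeries.mk N) := by
  rw [isLD_iff]
  intro n
  rw [PowerSeries.coeff_mk, h, PowerSeries.coeff_mul,
    Finset.Nat.sum_antidiagonal_eq_sum_range_succ_mk, ← Finset.sum_range_reflect]
  simp only [PowerSeries.coeff_mk]
  rw [Finset.sum_range_succ']
  simp only [Nat.succ_sub_succ_eq_sub, tsub_zero, tsub_self, hN, mul_zero, add_zero]
  rw [Finset.sum_bij (fun (j : ℕ) (_ : j ∈ Finset.Icc 1 n) => j - 1)]
  · intro j hj
    rw [Finset.mem_Icc] at hj
    rw [Finset.mem_range]; omega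
  · intro j hj j' hj' hjj
    rw [Finset.mem_Icc] at hj hj'
    omega
  · intro j hj
    rw [Finset.mem_range] at hj
    exact ⟨j + 1, by rw [Finset.mem_Icc]; omega, by omega⟩
  · intro j hj
    rw [Finset.mem_Icc] at hj
    rw [mul_comm]
    have e1 : n - (j - 1 + 1) = n - j := by omega
    have e2 : n - (n - (j - 1 + 1)) = j := by omega
    rw [e2, e1]

/-- the weighted zeta relation -/
theorem isLD_weight (h : Frob p φ q) {R : Type*} [Field R] (w : Divisor K F → R)
    (hw : ∀ D E : Divisor K F, φ • D = D → φ • E = E → w (D + E) = w D * w E) :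
    IsLD (PowerSeries.mk fun n => ∑ᶠ D ∈ EI φ n, w D)
      (PowerSeries.mk fun j => if j = 0 then 0 else
        ∑ᶠ v ∈ {v : Place K F | φ ^ j • v = v},
          w (nrm (MulAction.toPerm φ : Equiv.Perm (Place K F)) j v)) := by
  apply isLD_mk
  · simp
  · intro n
    have hP : ∀ n : ℕ, 1 ≤ n →
        {v : Place K F | ((MulAction.toPerm φ : Equiv.Perm (Place K F)) ^ n) v = v}.Finite := by
      intro m hm
      have := h.finite_fixed (n := m) (by omega)
      simpa only [Frob.toPerm_pow] using this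
    have := main_identity hP w (fun D E hD hE => hw D E (inv_iff.mp hD) (inv_iff.mp hE)) n
    rw [this]
    refine Finset.sum_congr rfl fun j hj => ?_
    rw [Finset.mem_Icc] at hj
    rw [if_neg (by omega)]
    simp only [Frob.toPerm_pow]

/-- number of fixed places -/
noncomputable def Nfix (φ : SemilinearAut K F) (n : ℕ) : ℕ := {v : Place K F | φ ^ n • v = v}.ncard

theorem finsum_mem_const_one {α R : Type*} [CommRing R] {s : Set α} (hs : s.Finite) :
    ∑ᶠ x ∈ s, (1 : R) = (s.ncard : R) := by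
  rw [finsum_mem_eq_finite_toFinset_sum _ hs, Finset.sum_const, nsmul_eq_mul, mul_one,
    ← Set.ncard_eq_toFinset_card _ hs]

variable [IsAlgClosed K] [CharP K p]

omit [IsAlgClosed K] [CharP K p] in
theorem isLD_zeta (h : Frob p φ q) :
    IsLD (PowerSeries.mk fun n => ((EI φ n).ncard : ℂ))
      (PowerSeries.mk fun j => if j = 0 then 0 else (Nfix φ j : ℂ)) := by
  have h1 := isLD_weight h (fun _ => (1 : ℂ)) (fun _ _ _ _ => (mul_one 1).symm)
  have e1 : (fun n => ∑ᶠ D ∈ EI φ n, (1 : ℂ)) = fun n => ((EI φ n).ncard : ℂ) := by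
    funext n
    exact finsum_mem_const_one (finite_EI h n)
  have e2 : (fun j => if j = 0 then (0 : ℂ) else
        ∑ᶠ v ∈ {v : Place K F | φ ^ j • v = v}, (1 : ℂ)) =
      fun j => if j = 0 then 0 else (Nfix φ j : ℂ) := by
    funext j
    split_ifs with hj
    · rfl
    · exact finsum_mem_const_one (h.finite_fixed hj)
  rw [e1, e2] at h1
  exact h1

/-- the reciprocal roots of the numerator of the zeta function -/
theorem exists_roots (h : Frob p φ q) {P₀ : Place K F} (hP₀ : φ • P₀ = P₀)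
    (hg : 1 ≤ genusFF K F) :
    ∃ s : Multiset ℂ, s.card = 2 * genusFF K F ∧ (∀ a ∈ s, IsIntegral ℤ a) ∧
      s.prod = ((q ^ genusFF K F : ℤ) : ℂ) ∧
      (s.map fun a => 1 - a).prod = (Nat.card (fixedPic φ) : ℂ) ∧
      (((prd s : Polynomial ℂ) : PowerSeries ℂ) =
        (1 - PowerSeries.X) * ((1 - PowerSeries.C (q : ℂ) * PowerSeries.X) *
          PowerSeries.mk fun n => ((EI φ n).ncard : ℂ))) ∧
      ∀ n : ℕ, n ≠ 0 → (s.map (· ^ n)).sum = 1 + (q : ℂ) ^ n - Nfix φ n := by
  obtain ⟨L, hL1, hL2, hL3, hL4, hL5⟩ := zeta_main h hP₀ hg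
  set LC : Polynomial ℂ := L.map (Int.castRingHom ℂ) with hLC
  have hinj : Function.Injective (Int.castRingHom ℂ) := (Int.castRingHom ℂ).injective_int
  have hdeg : LC.natDegree = 2 * genusFF K F := by
    rw [hLC, Polynomial.natDegree_map_eq_of_injective hinj, hL2]
  have h0 : LC.coeff 0 = 1 := by rw [hLC, Polynomial.coeff_map, hL4]; simp
  obtain ⟨s, hs1, hs2, hs3, hs4⟩ := exists_prd _ LC hdeg h0
  have hser : ((prd s : Polynomial ℂ) : PowerSeries ℂ) =
        (1 - PowerSeries.X) * ((1 - PowerSeries.C (q : ℂ) * PowerSeries.X) *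
          PowerSeries.mk fun n => ((EI φ n).ncard : ℂ)) := by
    rw [← hs1, hLC, Polynomial.polynomial_map_coe, hL1]
    simp only [map_mul, map_sub, map_one, PowerSeries.map_X, PowerSeries.map_C]
    congr 2
  refine ⟨s, hs2, fun a ha => isIntegral_of_prd hL4 (by rw [← hs1]) ha (hs3 a ha), ?_, ?_,
    hser, ?_⟩
  · have h1 : LC.leadingCoeff = ((q ^ genusFF K F : ℤ) : ℂ) := by
      rw [hLC, Polynomial.leadingCoeff_map_of_injective hinj, hL3]
      simp
    rw [← h1, hs4, Multiset.prod_map_neg, hs2]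
    simp
  · rw [← eval_one_prd, ← hs1, hLC, Polynomial.eval_one_map, hL5]
    simp
  · -- log derivatives
    have h1 := isLD_zeta h
    have h2 := (isLD_linear (1 : ℂ)).mul ((isLD_linear (q : ℂ)).mul h1)
    have h3 := isLD_prd s
    rw [hser] at h3
    rw [map_one, one_mul] at h2
    have hne : ((prd s : Polynomial ℂ) : PowerSeries ℂ) ≠ 0 := by
      rw [Ne, Polynomial.coe_eq_zero_iff]
      intro h4
      have := coeff_zero_prd s
      rw [h4] at this
      simp at this
    rw [hser] at hne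
    have h5 := h3.unique_right h2 hne
    intro n hn
    have h6 := congrArg (PowerSeries.coeff n) h5
    rw [map_neg, coeff_psum s hn, map_add, map_add, PowerSeries.coeff_mk, PowerSeries.coeff_mk,
      PowerSeries.coeff_mk, if_neg hn, if_neg hn, if_neg hn, one_pow] at h6
    linear_combination -h6

theorem psum_map_pow (s : Multiset ℂ) (N : ℕ → ℂ) {m : ℕ} (hm : m ≠ 0)
    (h : ∀ n : ℕ, n ≠ 0 → (s.map (· ^ (m * n))).sum = N n) :
    psum (s.map (· ^ m)) = PowerSeries.mk fun n => if n = 0 then 0 else N n := by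
  ext n
  rcases eq_or_ne n 0 with rfl | hn
  · simp
  · rw [coeff_psum_map_pow s hm hn, coeff_psum s (Nat.mul_ne_zero hm hn), PowerSeries.coeff_mk,
      if_neg hn, h n hn]

omit [FF K F] [IsAlgClosed K] in
theorem Nfix_pow (φ : SemilinearAut K F) (m n : ℕ) : Nfix (φ ^ m) n = Nfix φ (m * n) := by
  unfold Nfix
  simp only [pow_mul]

/-- class numbers of constant field extensions -/
theorem card_fixedPic_pow (h : Frob p φ q) {P₀ : Place K F} (hP₀ : φ • P₀ = P₀)
    (hg : 1 ≤ genusFF K F) {s : Multiset ℂ}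
    (hs : ∀ n : ℕ, n ≠ 0 → (s.map (· ^ n)).sum = 1 + (q : ℂ) ^ n - Nfix φ n) {m : ℕ}
    (hm : m ≠ 0) :
    (s.map fun a => 1 - a ^ m).prod = (Nat.card (fixedPic (φ ^ m)) : ℂ) := by
  have hP₀' : φ ^ m • P₀ = P₀ := pow_smul_eq_of_dvd (by simpa using hP₀) (one_dvd m)
  obtain ⟨t, -, -, -, ht4, -, ht6⟩ := exists_roots (h.pow hm) hP₀' hg
  have h1 : psum t = psum (s.map (· ^ m)) := by
    rw [psum_map_pow s (fun n => 1 + ((q ^ m : ℕ) : ℂ) ^ n - Nfix (φ ^ m) n) hm]
    · ext n
      rcases eq_or_ne n 0 with rfl | hn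
      · simp
      · rw [coeff_psum t hn, ht6 n hn, PowerSeries.coeff_mk, if_neg hn]
    · intro n hn
      rw [hs _ (Nat.mul_ne_zero hm hn), Nfix_pow]
      push_cast
      rw [pow_mul]
  have h2 : ((prd t : Polynomial ℂ) : PowerSeries ℂ) = ((prd (s.map (· ^ m)) : Polynomial ℂ) :
      PowerSeries ℂ) := by
    have e1 := isLD_prd t
    have e2 := isLD_prd (s.map (· ^ m))
    rw [h1] at e1
    refine e1.unique_left e2 (by rw [map_neg, coeff_zero_psum, neg_zero]) ?_
    rw [Polynomial.coeff_coe, Polynomial.coeff_coe, coeff_zero_prd, coeff_zero_prd]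
  rw [Polynomial.coe_inj] at h2
  rw [← ht4, ← eval_one_prd, h2, eval_one_prd, Multiset.map_map]
  rfl

/-- the norm -/
noncomputable def normPic (φ : SemilinearAut K F) (m : ℕ) : Pic0 K F →+ Pic0 K F :=
  ∑ i ∈ Finset.range m, DistribSMul.toAddMonoidHom (Pic0 K F) (φ ^ i)

omit [FF K F] [IsAlgClosed K] in
theorem normPic_apply (φ : SemilinearAut K F) (m : ℕ) (c : Pic0 K F) :
    normPic φ m c = ∑ i ∈ Finset.range m, φ ^ i • c := by
  simp [normPic]

omit [FF K F] [IsAlgClosed K] in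
theorem smul_normPic {φ : SemilinearAut K F} {m : ℕ} {c : Pic0 K F} (hc : φ ^ m • c = c) :
    φ • normPic φ m c = normPic φ m c := by
  rw [normPic_apply, Finset.smul_sum]
  have h2 := Finset.sum_range_succ (fun i => φ ^ i • c) m
  have h3 := Finset.sum_range_succ' (fun i => φ ^ i • c) m
  rw [h2] at h3
  simp only [hc, pow_zero, one_smul, add_left_inj] at h3
  rw [h3]
  refine Finset.sum_congr rfl fun i _ => ?_
  rw [smul_smul, ← pow_succ']

omit [FF K F] [IsAlgClosed K] in
theorem normPic_mul (φ : SemilinearAut K F) (m n : ℕ) (c : Pic0 K F) :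
    normPic φ (m * n) c = normPic φ m (normPic (φ ^ m) n c) := by
  induction n with
  | zero => simp [normPic_apply]
  | succ n ih =>
    have h1 : normPic φ (m * (n + 1)) c = normPic φ (m * n) c + normPic φ m ((φ ^ m) ^ n • c) := by
      rw [normPic_apply, Nat.mul_succ, Finset.sum_range_add, normPic_apply, normPic_apply]
      congr 1
      refine Finset.sum_congr rfl fun i _ => ?_
      rw [smul_smul, ← pow_mul, ← pow_add, add_comm]
    rw [h1, ih, ← map_add]
    congr 1
    rw [normPic_apply, normPic_apply, Finset.sum_range_succ]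

theorem norm_surjective (h : Frob p φ q) {P₀ : Place K F} (hP₀ : φ • P₀ = P₀)
    (hg : 1 ≤ genusFF K F) {m : ℕ} (hm : m ≠ 0) {c : Pic0 K F} (hc : φ • c = c) :
    ∃ d : Pic0 K F, φ ^ m • d = d ∧ normPic φ m d = c := by
  classical
  by_contra hcon
  push Not at hcon
  have hfinG : Finite (fixedPic φ) := finite_fixedPic h hP₀
  have hP₀' : φ ^ m • P₀ = P₀ := pow_smul_eq_of_dvd (by simpa using hP₀) (one_dvd m)
  -- the image of the norm
  let N : fixedPic (φ ^ m) →+ fixedPic φ :=
    { toFun := fun d => ⟨normPic φ m d.1, smul_normPic d.2⟩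
      map_zero' := Subtype.ext (map_zero (normPic φ m))
      map_add' := fun a b => Subtype.ext (map_add (normPic φ m) a.1 b.1) }
  set H : AddSubgroup (fixedPic φ) := N.range with hH
  have hcH : (⟨c, hc⟩ : fixedPic φ) ∉ H := by
    rintro ⟨d, hd⟩
    exact hcon d.1 d.2 (congrArg Subtype.val hd)
  obtain ⟨ψ, hψ⟩ := (AddChar.exists_apply_ne_zero (α := fixedPic φ ⧸ H)
    (a := QuotientAddGroup.mk (⟨c, hc⟩ : fixedPic φ))).mpr (by
      rw [Ne, QuotientAddGroup.eq_zero_iff]; exact hcH)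
  set χ : AddChar (fixedPic φ) ℂ := ψ.compAddMonoidHom (QuotientAddGroup.mk' H) with hχ
  have hχH : ∀ x ∈ H, χ x = 1 := by
    intro x hx
    rw [hχ, AddChar.compAddMonoidHom_apply]
    have : (QuotientAddGroup.mk' H) x = 0 := (QuotientAddGroup.eq_zero_iff x).mpr hx
    rw [this, AddChar.map_zero_eq_one]
  have hχne : χ ≠ 0 := by
    intro h0
    have h1 : χ ⟨c, hc⟩ = 1 := by rw [h0]; simp
    exact hψ h1
  -- the weight
  set f : Pic0 K F → ℂ := fun c => if hc : φ • c = c then χ ⟨c, hc⟩ else 0 with hf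
  have hfG : ∀ x : fixedPic φ, f x.1 = χ x := by
    intro x
    simp only [hf]
    rw [dif_pos (show φ • x.1 = x.1 from x.2)]
  have hfadd : ∀ a b : Pic0 K F, φ • a = a → φ • b = b → f (a + b) = f a * f b := by
    intro a b ha hb
    have h1 := hfG ⟨a, ha⟩
    have h2 := hfG ⟨b, hb⟩
    have h3 := hfG (⟨a, ha⟩ + ⟨b, hb⟩)
    rw [AddChar.map_add_eq_mul] at h3
    simp only at h1 h2
    rw [h1, h2, ← h3]
    rfl
  have hf0 : f 0 = 1 := by
    have := hfG 0
    rw [AddChar.map_zero_eq_one] at this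
    exact this
  have hfsum : ∑ᶠ c ∈ (fixedPic φ : Set (Pic0 K F)), f c = 0 := by
    rw [← finsum_set_coe_eq_finsum_mem (f := f)]
    have hfin' : Fintype (fixedPic φ) := Fintype.ofFinite _
    have h1 : (∑ᶠ i : ((fixedPic φ : Set (Pic0 K F))), f i) = ∑ᶠ i : fixedPic φ, χ i :=
      finsum_congr fun i => hfG i
    rw [h1, finsum_eq_sum_of_fintype]
    exact AddChar.sum_eq_zero_iff_ne_zero.mpr hχne
  set w : Divisor K F → ℂ := fun D => f (cls P₀ D) with hw
  have hwmul : ∀ D E : Divisor K F, φ • D = D → φ • E = E → w (D + E) = w D * w E := by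
    intro D E hD hE
    simp only [hw]
    rw [map_add, hfadd _ _ (by rw [cls_smul P₀ hP₀, hD]) (by rw [cls_smul P₀ hP₀, hE])]
  set a : ℕ → ℂ := fun n => ∑ᶠ D ∈ EI φ n, w D with ha
  have hq := h.two_le
  have hqC : (q : ℂ) - 1 ≠ 0 := by
    rw [sub_ne_zero]
    exact_mod_cast (by omega : q ≠ 1)
  have ha0 : ∀ n, 2 * genusFF K F - 1 ≤ n → a n = 0 := by
    intro n hn
    have h1 := sum_EI_large h hP₀ f n hg hn
    rw [hfsum, zero_mul] at h1
    exact (mul_eq_zero.mp h1).resolve_right hqC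
  have ha1 : a 0 = 1 := by
    simp only [ha]
    rw [EI_zero, finsum_mem_singleton]
    simp only [hw]
    rw [map_zero, hf0]
  set A : Polynomial ℂ := PowerSeries.trunc (2 * genusFF K F) (PowerSeries.mk a) with hA
  have hAcoe : (A : PowerSeries ℂ) = PowerSeries.mk a := by
    ext n
    rw [Polynomial.coeff_coe, hA, PowerSeries.coeff_trunc, PowerSeries.coeff_mk]
    split_ifs with hn
    · rfl
    · exact (ha0 n (by omega)).symm
  have hA0 : A.coeff 0 = 1 := by
    rw [← Polynomial.coeff_coe, hAcoe, PowerSeries.coeff_mk, ha1]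
  obtain ⟨t, ht, -, -, -⟩ := exists_prd _ A rfl hA0
  have hLD1 := isLD_weight h w hwmul
  have hLD2 := isLD_prd t
  rw [← ht, hAcoe] at hLD2
  have hne : PowerSeries.mk a ≠ 0 := by
    intro h0
    have := congrArg (PowerSeries.coeff 0) h0
    rw [PowerSeries.coeff_mk, ha1, map_zero] at this
    exact one_ne_zero this
  have hpt := hLD2.unique_right hLD1 hne
  -- power sums at multiples of `m`
  have hpow : ∀ n : ℕ, n ≠ 0 → (t.map (· ^ (m * n))).sum = -(Nfix (φ ^ m) n : ℂ) := by
    intro n hn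
    have hmn : m * n ≠ 0 := Nat.mul_ne_zero hm hn
    have h1 := congrArg (PowerSeries.coeff (m * n)) hpt
    rw [map_neg, coeff_psum t hmn, PowerSeries.coeff_mk, if_neg hmn] at h1
    rw [← neg_eq_iff_eq_neg, h1, Nfix_pow, Nfix, ← finsum_mem_const_one (h.finite_fixed hmn)]
    apply finsum_mem_congr rfl
    intro v hv
    rw [Set.mem_ofPred_eq] at hv
    simp only [hw]
    set c' : Pic0 K F := cls P₀ (Finsupp.single v 1) with hc'
    have hP₀i : ∀ i : ℕ, φ ^ i • P₀ = P₀ := fun i =>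
      pow_smul_eq_of_dvd (by simpa using hP₀) (one_dvd i)
    have h2 : cls P₀ (nrm (MulAction.toPerm φ : Equiv.Perm (Place K F)) (m * n) v) =
        normPic φ (m * n) c' := by
      rw [nrm, map_sum, normPic_apply]
      refine Finset.sum_congr rfl fun i _ => ?_
      rw [hc', cls_smul P₀ (hP₀i i), SemilinearAut.smul_single, Frob.toPerm_pow]
    have h3 : (φ ^ m) ^ n • c' = c' := by
      rw [← pow_mul, hc', cls_smul P₀ (hP₀i _), SemilinearAut.smul_single, hv]
    rw [h2, normPic_mul]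
    set d : Pic0 K F := normPic (φ ^ m) n c' with hd
    have h4 : φ ^ m • d = d := smul_normPic h3
    have h5 : N ⟨d, h4⟩ ∈ H := ⟨_, rfl⟩
    have h6 := hfG (N ⟨d, h4⟩)
    rw [hχH _ h5] at h6
    exact h6
  have hps := psum_map_pow t (fun n => -(Nfix (φ ^ m) n : ℂ)) hm hpow
  have hz1 := isLD_zeta (h.pow hm)
  have hz2 := isLD_prd (t.map (· ^ m))
  have hneg : -psum (t.map (· ^ m)) = PowerSeries.mk fun j => if j = 0 then 0 else
      (Nfix (φ ^ m) j : ℂ) := by
    rw [hps]
    ext n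
    rw [map_neg, PowerSeries.coeff_mk, PowerSeries.coeff_mk]
    split_ifs <;> simp
  rw [hneg] at hz2
  have hZ := hz1.unique_left hz2 (by simp) (by
    rw [PowerSeries.coeff_mk, EI_zero, Set.ncard_singleton, Polynomial.coeff_coe, coeff_zero_prd,
      Nat.cast_one])
  obtain ⟨s', -, -, -, hs4, hs5, -⟩ := exists_roots (h.pow hm) hP₀' hg
  rw [hZ] at hs5
  have hpoly : prd s' = (1 - Polynomial.X) * ((1 - Polynomial.C ((q ^ m : ℕ) : ℂ) * Polynomial.X) *
      prd (t.map (· ^ m))) := by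
    rw [← Polynomial.coe_inj, hs5]
    simp only [Polynomial.coe_mul, Polynomial.coe_sub, Polynomial.coe_one, Polynomial.coe_X,
      Polynomial.coe_C]
  have h7 := congrArg (Polynomial.eval 1) hpoly
  rw [eval_one_prd, hs4, Polynomial.eval_mul] at h7
  have hfinm : Finite (fixedPic (φ ^ m)) := finite_fixedPic (h.pow hm) hP₀'
  have h8 : Nat.card (fixedPic (φ ^ m)) ≠ 0 := Nat.card_pos.ne'
  simp at h7
  exact h8 h7

end Fermat.Agent.Zeta
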